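import Fermat.Agent.EllTorsion.Torsion
import Fermat.Agent.Frey.CurveFacts

set_option autoImplicit false

/-!
# `p`-torsion of the Frey curve (and of integral models): cardinality, rank, finite level
-/

open WeierstrassCurve WeierstrassCurve.Affine WeierstrassCurve.Affine.Point
open scoped WeierstrassCurve.Affine

namespace Fermat.Agent.EllTorsion

section Rat

variable (W : WeierstrassCurve ℚ)

theorem isElliptic_of_Δ_ne_zero {F : Type*} [Field F] {W : WeierstrassCurve F} (h : W.Δ ≠ 0) :
    W.IsElliptic := ⟨isUnit_iff_ne_zero.mpr h⟩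

theorem isElliptic_map_of_Δ_ne_zero {W : WeierstrassCurve ℤ} (h : W.Δ ≠ 0) :
    (W.map (Int.castRingHom ℚ)).IsElliptic := by
  constructor
  rw [WeierstrassCurve.map_Δ]
  exact isUnit_iff_ne_zero.mpr (by simpa using h)

/-- `#E[n] = n²` over `Q̄` for `W/ℚ`. -/
theorem card_torsionBy_rat [W.IsElliptic] {n : ℕ} (hn : n ≠ 0) :
    Nat.card (Submodule.torsionBy ℤ (W⁄(AlgebraicClosure ℚ)).Point n) = n ^ 2 := by
  have : WeierstrassCurve.IsElliptic (W⁄(AlgebraicClosure ℚ)) := isElliptic_baseChange W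
  exact card_torsionBy W (K := AlgebraicClosure ℚ) (by exact_mod_cast hn)

theorem nonempty_basis_torsionBy_rat [W.IsElliptic] {n : ℕ} (hn : n ≠ 0) :
    Nonempty (Module.Basis (Fin 2) (ZMod n)
      (Submodule.torsionBy ℤ (W⁄(AlgebraicClosure ℚ)).Point n)) := by
  have : WeierstrassCurve.IsElliptic (W⁄(AlgebraicClosure ℚ)) := isElliptic_baseChange W
  exact nonempty_basis_torsionBy W (K := AlgebraicClosure ℚ) (by exact_mod_cast hn)

theorem finrank_torsionBy_rat [W.IsElliptic] {n : ℕ} (hn : n ≠ 0) (hn1 : n ≠ 1) :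
    Module.finrank (ZMod n) (Submodule.torsionBy ℤ (W⁄(AlgebraicClosure ℚ)).Point n) = 2 := by
  have : WeierstrassCurve.IsElliptic (W⁄(AlgebraicClosure ℚ)) := isElliptic_baseChange W
  exact finrank_torsionBy W (K := AlgebraicClosure ℚ) (by exact_mod_cast hn) hn1

end Rat

section Frey

variable (P : FreyPackage)

theorem frey_isElliptic : P.freyCurve.IsElliptic := by
  rw [← FreyPackage.AgentFrey.map_freyCurveInt]
  exact isElliptic_map_of_Δ_ne_zero (FreyPackage.AgentFrey.freyCurveInt_Δ_ne_zero P)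

theorem frey_card_torsionBy :
    Nat.card (Submodule.torsionBy ℤ (P.freyCurve⁄(AlgebraicClosure ℚ)).Point P.p) = P.p ^ 2 := by
  have := frey_isElliptic P
  exact card_torsionBy_rat P.freyCurve P.pp.ne_zero

theorem frey_finrank_torsionBy :
    Module.finrank (ZMod P.p)
      (Submodule.torsionBy ℤ (P.freyCurve⁄(AlgebraicClosure ℚ)).Point P.p) = 2 := by
  have := frey_isElliptic P
  exact finrank_torsionBy_rat P.freyCurve P.pp.ne_zero P.pp.ne_one

theorem frey_factorsThroughFiniteLevel :
    GaloisFactorsThroughFiniteLevel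
      (galoisRepModuleEnd (K := AlgebraicClosure ℚ) ℚ P.freyCurve P.p) := by
  have := frey_isElliptic P
  exact galoisRepModuleEnd_factorsThroughFiniteLevel P.freyCurve P.pp.ne_zero

end Frey

end Fermat.Agent.EllTorsion
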