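import Mathlib

set_option autoImplicit false

/-!
# A finite abelian group with `#G[d] = d²` for all `d ∣ n` and killed by `n` is `(ℤ/n)²`
-/

namespace Fermat.Agent.EllTorsion

variable {G : Type*} [AddCommGroup G]

/-- the `d`-torsion has `d²` elements for `d ∣ n`, and `n` kills `G`. -/
structure HasTorsionCard (G : Type*) [AddCommGroup G] (n : ℕ) : Prop where
  killed : ∀ g : G, n • g = 0
  card : ∀ d : ℕ, d ∣ n → Nat.card {g : G // d • g = 0} = d ^ 2

theorem HasTorsionCard.card_eq {n : ℕ} (h : HasTorsionCard G n) : Nat.card G = n ^ 2 := by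
  rw [← h.card n dvd_rfl]
  exact Nat.card_congr (Equiv.subtypeUnivEquiv h.killed).symm

theorem HasTorsionCard.finite {n : ℕ} (hn : n ≠ 0) (h : HasTorsionCard G n) : Finite G :=
  Nat.finite_of_card_ne_zero (by rw [h.card_eq]; positivity)

/-- there's an element of order `n` -/
theorem HasTorsionCard.exists_addOrderOf_eq {n : ℕ} (hn : n ≠ 0) (h : HasTorsionCard G n) :
    ∃ g : G, addOrderOf g = n := by
  have := h.finite hn
  obtain ⟨g, hg⟩ := AddMonoid.exists_addOrderOf_eq_exponent (G := G)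
    (AddMonoid.ExponentExists.of_finite)
  refine ⟨g, hg.trans ?_⟩
  set m := AddMonoid.exponent G with hm
  have hmn : m ∣ n := AddMonoid.exponent_dvd_of_forall_nsmul_eq_zero h.killed
  have h1 : Nat.card {g : G // m • g = 0} = m ^ 2 := h.card m hmn
  have h2 : Nat.card {g : G // m • g = 0} = Nat.card G :=
    Nat.card_congr (Equiv.subtypeUnivEquiv fun g ↦ AddMonoid.exponent_nsmul_eq_zero g)
  rw [h1, h.card_eq] at h2
  exact Nat.pow_left_injective (by norm_num) h2

/-- the number of elements killed by `k` in a finite cyclic group is at most `k` -/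
theorem card_zmultiples_torsion_le [Finite G] (g : G) {k : ℕ} (hk : 0 < k) :
    Nat.card {x : AddSubgroup.zmultiples g // k • x = 0} ≤ k := by
  classical
  have := Fintype.ofFinite (AddSubgroup.zmultiples g)
  rw [Nat.card_eq_fintype_card, Fintype.card_subtype]
  exact IsAddCyclic.card_nsmul_eq_zero_le hk

/-- the quotient by a subgroup generated by an element of order `n` has exponent `n`. -/
theorem HasTorsionCard.exists_independent {n : ℕ} (hn : n ≠ 0) (h : HasTorsionCard G n) {g : G}
    (hg : addOrderOf g = n) :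
    ∃ x : G, ∀ b : ℤ, b • x ∈ AddSubgroup.zmultiples g → (n : ℤ) ∣ b := by
  have hfin := h.finite hn
  let Q := G ⧸ AddSubgroup.zmultiples g
  obtain ⟨q, hq⟩ := AddMonoid.exists_addOrderOf_eq_exponent (G := Q)
    (AddMonoid.ExponentExists.of_finite)
  obtain ⟨x, rfl⟩ := QuotientAddGroup.mk_surjective q
  set m := AddMonoid.exponent Q with hm
  have hmn : m ∣ n := AddMonoid.exponent_dvd_of_forall_nsmul_eq_zero fun q ↦ by
    obtain ⟨y, rfl⟩ := QuotientAddGroup.mk_surjective q
    change ((n • y : G) : Q) = 0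
    rw [h.killed y]; rfl
  obtain ⟨k, hk⟩ := hmn
  have hm0 : m ≠ 0 := by rintro h0; rw [h0, zero_mul] at hk; exact hn hk
  have hk0 : k ≠ 0 := by rintro h0; rw [h0, mul_zero] at hk; exact hn hk
  -- the range of multiplication by `m`
  have hcard : Nat.card (nsmulAddMonoidHom (α := G) m).range = k ^ 2 := by
    have h1 := AddSubgroup.card_mul_index (nsmulAddMonoidHom (α := G) m).ker
    rw [AddSubgroup.index_ker, h.card_eq] at h1
    have h2 : Nat.card (nsmulAddMonoidHom (α := G) m).ker = m ^ 2 := by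
      rw [← h.card m ⟨k, hk⟩]
      exact Nat.card_congr (Equiv.subtypeEquivRight fun g ↦ by
        rw [AddMonoidHom.mem_ker]; rfl)
    rw [h2, hk, mul_pow] at h1
    exact Nat.eq_of_mul_eq_mul_left (by positivity) h1
  have hle : Nat.card (nsmulAddMonoidHom (α := G) m).range ≤
      Nat.card {x : AddSubgroup.zmultiples g // k • x = 0} := by
    have hmem : ∀ y : G, m • y ∈ AddSubgroup.zmultiples g := fun y ↦ by
      have := AddMonoid.exponent_nsmul_eq_zero (y : Q)
      rw [← hm] at this
      exact (QuotientAddGroup.eq_zero_iff _).mp this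
    refine Nat.card_le_card_of_injective
      (fun z : (nsmulAddMonoidHom (α := G) m).range ↦
        (⟨⟨z.1, ?_⟩, ?_⟩ : {x : AddSubgroup.zmultiples g // k • x = 0})) ?_
    · obtain ⟨y, hy⟩ := z.2
      rw [← hy]; exact hmem y
    · obtain ⟨y, hy⟩ := z.2
      apply Subtype.ext
      change k • z.1 = 0
      rw [← hy]
      change k • m • y = 0
      rw [smul_smul, mul_comm, ← hk, h.killed]
    · intro z z' hzz'
      have := congrArg (fun w : {x : AddSubgroup.zmultiples g // k • x = 0} ↦ (w.1.1 : G)) hzz'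
      exact Subtype.ext this
  have hk1 : k = 1 := by
    have := hle.trans (card_zmultiples_torsion_le g (Nat.pos_of_ne_zero hk0))
    rw [hcard, pow_two] at this
    have h3 : 1 ≤ k := Nat.one_le_iff_ne_zero.mpr hk0
    nlinarith
  rw [hk1, mul_one] at hk
  refine ⟨x, fun b hb ↦ ?_⟩
  rw [hk, ← hq, addOrderOf_dvd_iff_zsmul_eq_zero]
  exact (QuotientAddGroup.eq_zero_iff _).mpr hb

/-- **Structure**: a group with `#G[d] = d²` for `d ∣ n`, killed by `n`, is `(ℤ/n)²`. -/
theorem HasTorsionCard.nonempty_addEquiv {n : ℕ} (hn : n ≠ 0) (h : HasTorsionCard G n) :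
    Nonempty ((ZMod n × ZMod n) ≃+ G) := by
  have hfin := h.finite hn
  obtain ⟨g, hg⟩ := h.exists_addOrderOf_eq hn
  obtain ⟨x, hx⟩ := h.exists_independent hn hg
  have hz : ∀ y : G, ((zmultiplesHom G) y) (n : ℤ) = 0 := fun y ↦ by
    rw [zmultiplesHom_apply, natCast_zsmul, h.killed]
  let φ : (ZMod n × ZMod n) →+ G :=
    (ZMod.lift n ⟨zmultiplesHom G g, hz g⟩).coprod (ZMod.lift n ⟨zmultiplesHom G x, hz x⟩)
  have hφ : ∀ a b : ℤ, φ ((a : ZMod n), (b : ZMod n)) = a • g + b • x := by
    intro a b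
    simp [φ, AddMonoidHom.coprod_apply, ZMod.lift_coe]
  have hinj : Function.Injective φ := by
    rw [injective_iff_map_eq_zero]
    rintro ⟨a, b⟩ hab
    obtain ⟨a, rfl⟩ := ZMod.intCast_surjective a
    obtain ⟨b, rfl⟩ := ZMod.intCast_surjective b
    rw [hφ] at hab
    have hb : (n : ℤ) ∣ b := hx b ⟨-a, by
      change (-a) • g = b • x
      rw [neg_smul]; exact neg_eq_of_add_eq_zero_right hab⟩
    obtain ⟨b', rfl⟩ := hb
    have hb0 : ((n : ℤ) * b') • x = 0 := by
      rw [mul_comm, mul_smul, natCast_zsmul, h.killed, smul_zero]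
    rw [hb0, add_zero, ← addOrderOf_dvd_iff_zsmul_eq_zero, hg] at hab
    rw [Prod.mk_eq_zero]
    exact ⟨(ZMod.intCast_zmod_eq_zero_iff_dvd _ _).mpr hab, by simp⟩
  have : NeZero n := ⟨hn⟩
  have hbij : Function.Bijective φ := by
    rw [Nat.bijective_iff_injective_and_card]
    refine ⟨hinj, ?_⟩
    rw [Nat.card_prod, Nat.card_zmod, h.card_eq, pow_two]
  exact ⟨AddEquiv.ofBijective φ hbij⟩

end Fermat.Agent.EllTorsion
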