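import Fermat.Agent.EllTorsion.Card
import Fermat.Agent.EllTorsion.GroupStructure
import Fermat.Prelude.Def_GaloisRep_Residual

set_option autoImplicit false

/-!
# `E[n]` in the form used by the prelude
-/

open WeierstrassCurve WeierstrassCurve.Affine WeierstrassCurve.Affine.Point
open scoped WeierstrassCurve.Affine

namespace Fermat.Agent.EllTorsion

section General

variable {R : Type*} {S : Type*} {K : Type*} [CommRing R] [CommRing S] [Field K]
  [DecidableEq K] {W' : Affine R} [Algebra R S] [Algebra R K] [Algebra S K]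
  [IsScalarTower R S K] [IsAlgClosed K] [(W'⁄K).IsElliptic]

variable (W') in
theorem card_torsionBy {n : ℕ} (hn : (n : K) ≠ 0) :
    Nat.card (Submodule.torsionBy ℤ (W'⁄K).Point n) = n ^ 2 := by
  rw [← card_nsmul_eq_zero (W := (W'⁄K)) hn]
  exact Nat.card_congr (Equiv.subtypeEquivRight fun P ↦ by
    rw [Submodule.mem_torsionBy_iff, Nat.cast_smul_eq_nsmul])

variable (W' K) in
theorem finite_torsionBy {n : ℕ} (hn : n ≠ 0) :
    Finite (Submodule.torsionBy ℤ (W'⁄K).Point n) := by
  have : Finite {P : (W'⁄K).Point // n • P = 0} :=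
    (finite_nsmul_eq_zero (W := (W'⁄K)) hn).to_subtype
  exact Finite.of_equiv _ (Equiv.subtypeEquivRight fun P ↦ by
    rw [Submodule.mem_torsionBy_iff, Nat.cast_smul_eq_nsmul] : 
      {P : (W'⁄K).Point // n • P = 0} ≃ Submodule.torsionBy ℤ (W'⁄K).Point n)

variable (W') in
theorem hasTorsionCard_torsionBy {n : ℕ} (hn : (n : K) ≠ 0) :
    HasTorsionCard (Submodule.torsionBy ℤ (W'⁄K).Point n) n where
  killed g := by
    rw [← Nat.cast_smul_eq_nsmul ℤ]
    exact Submodule.smul_torsionBy _ g
  card d hd := by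
    obtain ⟨k, hk⟩ := hd
    have hd : (d : K) ≠ 0 := by
      rintro h0
      apply hn
      rw [hk, Nat.cast_mul, h0, zero_mul]
    rw [← card_nsmul_eq_zero (W := (W'⁄K)) hd]
    refine Nat.card_congr ⟨fun P ↦ ⟨P.1.1, ?_⟩, fun P ↦ ⟨⟨P.1, ?_⟩, ?_⟩, fun P ↦ rfl, fun P ↦ rfl⟩
    · exact congrArg Subtype.val P.2
    · rw [Submodule.mem_torsionBy_iff, Nat.cast_smul_eq_nsmul, hk, mul_comm, mul_smul, P.2,
        smul_zero]
    · exact Subtype.ext P.2

variable (W') in
/-- `E[n] ≅ (ℤ/n)²` -/
theorem nonempty_addEquiv_torsionBy {n : ℕ} (hn : (n : K) ≠ 0) :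
    Nonempty ((ZMod n × ZMod n) ≃+ Submodule.torsionBy ℤ (W'⁄K).Point n) :=
  (hasTorsionCard_torsionBy W' hn).nonempty_addEquiv (by rintro rfl; simp at hn)

variable (W') in
/-- `E[n] ≅ (ℤ/n)²`, linearly over `ℤ/n` -/
theorem nonempty_linearEquiv_torsionBy {n : ℕ} (hn : (n : K) ≠ 0) :
    Nonempty ((Fin 2 → ZMod n) ≃ₗ[ZMod n] Submodule.torsionBy ℤ (W'⁄K).Point n) := by
  obtain ⟨e⟩ := nonempty_addEquiv_torsionBy W' hn
  let e' : (Fin 2 → ZMod n) ≃+ Submodule.torsionBy ℤ (W'⁄K).Point n :=
    ((LinearEquiv.finTwoArrow (ZMod n) (ZMod n)).toAddEquiv).trans e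
  exact ⟨{ e' with map_smul' := fun c x ↦ ZMod.map_smul e'.toAddMonoidHom c x }⟩

variable (W') in
theorem nonempty_basis_torsionBy {n : ℕ} (hn : (n : K) ≠ 0) :
    Nonempty (Module.Basis (Fin 2) (ZMod n) (Submodule.torsionBy ℤ (W'⁄K).Point n)) := by
  obtain ⟨e⟩ := nonempty_linearEquiv_torsionBy W' hn
  exact ⟨Module.Basis.ofEquivFun e.symm⟩

variable (W') in
theorem free_torsionBy {n : ℕ} (hn : (n : K) ≠ 0) :
    Module.Free (ZMod n) (Submodule.torsionBy ℤ (W'⁄K).Point n) := by
  obtain ⟨b⟩ := nonempty_basis_torsionBy W' hn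
  exact Module.Free.of_basis b

variable (W') in
theorem moduleFinite_torsionBy {n : ℕ} (hn : (n : K) ≠ 0) :
    Module.Finite (ZMod n) (Submodule.torsionBy ℤ (W'⁄K).Point n) := by
  obtain ⟨b⟩ := nonempty_basis_torsionBy W' hn
  exact Module.Finite.of_basis b

variable (W') in
theorem finrank_torsionBy {n : ℕ} (hn : (n : K) ≠ 0) (hn1 : n ≠ 1) :
    Module.finrank (ZMod n) (Submodule.torsionBy ℤ (W'⁄K).Point n) = 2 := by
  obtain ⟨b⟩ := nonempty_basis_torsionBy W' hn
  have : Nontrivial (ZMod n) := ZMod.nontrivial_iff.mpr hn1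
  rw [Module.finrank_eq_card_basis b, Fintype.card_fin]

end General

section Rational

/-- `Q̄` is an algebraic closure of `ℚ` also for the `ℚ`-algebra structure coming from
`DivisionRing.toRatAlgebra` (the one found by instance search). -/
theorem isAlgClosure_rat : IsAlgClosure ℚ (AlgebraicClosure ℚ) := by
  have h : (DivisionRing.toRatAlgebra : Algebra ℚ (AlgebraicClosure ℚ)) =
    AlgebraicClosure.instAlgebra ℚ := Subsingleton.elim _ _
  rw [h]
  infer_instance

/-- the set of coordinates of a point -/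
def coords {K : Type*} [Field K] {V : Affine K} : V.Point → Set K
  | 0 => ∅
  | Point.some x y _ => {x, y}

theorem finite_coords {K : Type*} [Field K] {V : Affine K} (P : V.Point) : (coords P).Finite := by
  rcases P with _ | ⟨x, y, h⟩
  · exact Set.finite_empty
  · exact Set.toFinite {x, y}

/-- An automorphism fixing the coordinates of a point fixes the point. -/
theorem smul_eq_self_of_coords {R : Type*} {S : Type*} {K : Type*} [CommRing R] [CommRing S]
    [Field K] [DecidableEq K] {W' : Affine R} [Algebra R S] [Algebra R K] [Algebra S K]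
    [IsScalarTower R S K] (σ : K ≃ₐ[S] K) (P : (W'⁄K).Point) (h : ∀ x ∈ coords P, σ x = x) :
    σ • P = P := by
  rcases P with _ | ⟨x, y, hxy⟩
  · rfl
  · rw [algEquiv_smul_def, Point.map_some]
    have hx : σ x = x := h x (Set.mem_insert _ _)
    have hy : σ y = y := h y (Set.mem_insert_of_mem _ rfl)
    simp only [some.injEq]
    exact ⟨hx, hy⟩

/-- base change of an elliptic curve is elliptic (also for the `Affine` base change notation) -/
theorem isElliptic_baseChange {R K : Type*} [CommRing R] [CommRing K] [Algebra R K]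
    (W : WeierstrassCurve R) [W.IsElliptic] :
    WeierstrassCurve.IsElliptic (WeierstrassCurve.Affine.baseChange W K) :=
  inferInstanceAs (W.map (algebraMap R K)).IsElliptic

/-- **The Galois action on `E[n]` factors through a finite level.** -/
theorem galoisRepModuleEnd_factorsThroughFiniteLevel (W : WeierstrassCurve ℚ) [W.IsElliptic]
    {n : ℕ} (hn : n ≠ 0) :
    GaloisFactorsThroughFiniteLevel
      (galoisRepModuleEnd (K := AlgebraicClosure ℚ) ℚ W n) := by
  have : WeierstrassCurve.IsElliptic (W⁄(AlgebraicClosure ℚ)) := isElliptic_baseChange W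
  have hfin := finite_torsionBy (W' := W) (K := AlgebraicClosure ℚ) hn
  have hac := isAlgClosure_rat
  have : Algebra.IsAlgebraic ℚ (AlgebraicClosure ℚ) := hac.isAlgebraic
  let s : Set (AlgebraicClosure ℚ) :=
    ⋃ P : Submodule.torsionBy ℤ (W⁄(AlgebraicClosure ℚ)).Point n, coords P.1
  have hs : s.Finite := Set.finite_iUnion fun P ↦ finite_coords P.1
  refine ⟨IntermediateField.adjoin ℚ s, ?_, ?_⟩
  · have := hs.to_subtype
    exact IntermediateField.finiteDimensional_adjoin fun x _ ↦ Algebra.IsIntegral.isIntegral x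
  · intro σ hσ
    ext P : 1
    rw [galoisRepModuleEnd_apply, Module.End.one_apply]
    refine Subtype.ext (smul_eq_self_of_coords σ P.1 fun x hx ↦ hσ x ?_)
    exact IntermediateField.subset_adjoin ℚ s (Set.mem_iUnion.mpr ⟨P, hx⟩)

end Rational

end Fermat.Agent.EllTorsion
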