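import Fermat.Agent.EllTorsion.MulX

set_option autoImplicit false

/-!
# Counting `n`-torsion points of an elliptic curve over an algebraically closed field
-/

open WeierstrassCurve WeierstrassCurve.Affine WeierstrassCurve.Affine.Point
open Polynomial

namespace Fermat.Agent.EllTorsion

variable {F : Type*} [Field F] [DecidableEq F] {W : WeierstrassCurve F}

theorem IsMulX.nsmul_eq_zero_iff {n : ℕ} {A B : F[X]} (h : IsMulX W n A B) {x y : F}
    (hxy : W.toAffine.Nonsingular x y) : n • Point.some x y hxy = 0 ↔ B.eval x = 0 := by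
  obtain ⟨c, hc, e⟩ := h.exists_smul hxy
  have e1 := congrFun e 1
  simp only [Fin.isValue, Matrix.cons_val_one, Matrix.cons_val_zero, Pi.smul_apply,
    smul_eq_mul] at e1
  constructor
  · intro h0
    rw [e1, h0]
    simp
  · intro h0
    rw [h0] at e1
    rcases hP : n • Point.some x y hxy with _ | ⟨x', y', h'⟩
    · rfl
    · rw [hP] at e1
      simp only [xRep_some, Matrix.cons_val_one, Matrix.cons_val_zero, mul_one] at e1
      exact absurd e1.symm hc

/-- The fibre of `x ∘ [n]` over a finite value `c`. -/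
theorem IsMulX.nsmul_xRep_eq_iff {n : ℕ} {A B : F[X]} (h : IsMulX W n A B) {x y c : F}
    (hxy : W.toAffine.Nonsingular x y) :
    (n • Point.some x y hxy).xRep = ![c, 1] ↔ (A - C c * B).eval x = 0 := by
  obtain ⟨d, hd, e⟩ := h.exists_smul hxy
  have e0 := congrFun e 0
  have e1 := congrFun e 1
  simp only [Fin.isValue, Matrix.cons_val_zero, Matrix.cons_val_one, Pi.smul_apply,
    smul_eq_mul] at e0 e1
  simp only [eval_sub, eval_mul, eval_C]
  constructor
  · intro h0
    rw [h0] at e0 e1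
    simp only [Fin.isValue, Matrix.cons_val_zero, Matrix.cons_val_one] at e0 e1
    rw [e0, e1]; ring
  · intro h0
    rcases hP : n • Point.some x y hxy with _ | ⟨x', y', h'⟩
    · rw [hP] at e0 e1
      change A.eval x = d * 1 at e0
      change B.eval x = d * 0 at e1
      rw [e0, e1] at h0
      simp at h0
      exact absurd h0 hd
    · rw [hP] at e0 e1
      simp only [xRep_some, Matrix.cons_val_one, Matrix.cons_val_zero, mul_one] at e0 e1
      rw [e0, e1] at h0
      have : x' = c := by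
        apply mul_left_cancel₀ hd
        linear_combination h0
      rw [xRep_some, this]

omit [DecidableEq F] in
theorem finite_xRep_fiber (v : Fin 2 → F) : {P : W.toAffine.Point | P.xRep = v}.Finite := by
  classical
  by_cases h : ∃ P₀ : W.toAffine.Point, P₀.xRep = v
  · obtain ⟨P₀, hP₀⟩ := h
    refine Set.Finite.subset (s := {P₀, -P₀}) (Set.toFinite _) ?_
    intro P hP
    rw [Set.mem_ofPred_eq, ← hP₀] at hP
    rcases eq_or_eq_neg_of_xRep_eq_xRep hP with h | h <;> simp [h]
  · refine Set.Finite.subset (s := ∅) Set.finite_empty ?_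
    intro P hP
    exact absurd ⟨P, hP⟩ h

variable [IsAlgClosed F]

theorem IsMulX.B_ne_zero {n : ℕ} (hn : n ≠ 0) {A B : F[X]} (h : IsMulX W n A B) : B ≠ 0 := by
  intro hB
  have hdeg : A.degree ≠ 0 := by
    rw [degree_eq_natDegree h.monic.ne_zero, h.deg]
    exact_mod_cast pow_ne_zero 2 hn
  obtain ⟨x, hx⟩ := IsAlgClosed.exists_root _ hdeg
  exact h.cop x hx (by simp [hB])

theorem IsMulX.monic_sub {n : ℕ} {A B : F[X]} (h : IsMulX W n A B) (c : F) (hn : n ≠ 0) :
    (A - C c * B).Monic ∧ (A - C c * B).natDegree = n ^ 2 := by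
  have hB0 := h.B_ne_zero hn
  have hlt : (C c * B).natDegree < A.natDegree := by
    refine (natDegree_C_mul_le c B).trans_lt ?_
    have h1 := h.degB
    rw [natDegree_X_mul hB0] at h1
    rw [h.deg]; omega
  have hd : (A - C c * B).natDegree = n ^ 2 := by
    rw [natDegree_sub_eq_left_of_natDegree_lt hlt, h.deg]
  refine ⟨?_, hd⟩
  rw [Monic, leadingCoeff, hd, coeff_sub, ← h.deg, coeff_eq_zero_of_natDegree_lt hlt, sub_zero,
    h.monic.coeff_natDegree]

variable [W.IsElliptic]

theorem finite_nsmul_eq_zero {n : ℕ} (hn : n ≠ 0) :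
    {P : W.toAffine.Point | n • P = 0}.Finite := by
  obtain ⟨A, B, h⟩ := exists_isMulX (W := W) n
  have hB := h.B_ne_zero hn
  have hfin : (insert ![1, 0] ((fun x ↦ ![x, 1]) '' {x | IsRoot B x}) : Set (Fin 2 → F)).Finite :=
    ((finite_setOfPred_isRoot hB).image _).insert _
  refine Set.Finite.subset (hfin.preimage' (f := fun P : W.toAffine.Point ↦ P.xRep)
    fun v _ ↦ finite_xRep_fiber v) ?_
  intro P hP
  rcases P with _ | ⟨x, y, hxy⟩
  · exact Set.mem_insert _ _
  · exact Set.mem_insert_of_mem _ ⟨x, (h.nsmul_eq_zero_iff hxy).mp hP, rfl⟩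

theorem nsmul_surjective {n : ℕ} (hn : n ≠ 0) (Q : W.toAffine.Point) :
    ∃ P : W.toAffine.Point, n • P = Q := by
  rcases Q with _ | ⟨c, d, hcd⟩
  · exact ⟨0, nsmul_zero n⟩
  obtain ⟨A, B, h⟩ := exists_isMulX (W := W) n
  obtain ⟨hm, hd⟩ := h.monic_sub c hn
  have hdeg : (A - C c * B).degree ≠ 0 := by
    rw [degree_eq_natDegree hm.ne_zero, hd]
    exact_mod_cast pow_ne_zero 2 hn
  obtain ⟨x, hx⟩ := IsAlgClosed.exists_root _ hdeg
  obtain ⟨y, hxy⟩ := exists_nonsingular (W := W) x
  have h1 : (n • Point.some x y hxy).xRep = (Point.some c d hcd).xRep := by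
    rw [xRep_some]
    exact (h.nsmul_xRep_eq_iff hxy).mpr hx
  rcases eq_or_eq_neg_of_xRep_eq_xRep h1 with h2 | h2
  · exact ⟨_, h2⟩
  · exact ⟨-Point.some x y hxy, by rw [smul_neg, h2, neg_neg]⟩

/-- For all but finitely many `c` the polynomial `A - cB` has `n²` distinct roots. -/
theorem IsMulX.finite_bad {n : ℕ} {A B : F[X]} (h : IsMulX W n A B) (hn : (n : F) ≠ 0) :
    {c : F | ∃ x, (A - C c * B).eval x = 0 ∧ (derivative (A - C c * B)).eval x = 0}.Finite := by
  have hn0 : n ≠ 0 := by rintro rfl; simp at hn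
  set D : F[X] := derivative A * B - A * derivative B with hD
  have hX : ∀ p : F[X], p.natDegree ≤ n ^ 2 → (X * derivative p).natDegree ≤ n ^ 2 ∧
      (X * derivative p).coeff (n ^ 2) = (n : F) ^ 2 * p.coeff (n ^ 2) := by
    intro p hp
    obtain ⟨k, hk⟩ : ∃ k, n ^ 2 = k + 1 := ⟨n ^ 2 - 1, by
      have : 0 < n ^ 2 := by positivity
      omega⟩
    have hk' : (n : F) ^ 2 = (k : F) + 1 := by exact_mod_cast congrArg (Nat.cast : ℕ → F) hk
    rw [hk', hk]
    rw [hk] at hp
    refine ⟨?_, ?_⟩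
    · have := natDegree_derivative_le p
      exact (natDegree_mul_le_of_le natDegree_X_le this).trans (by omega)
    · rw [coeff_X_mul, coeff_derivative, mul_comm]
  have hD0 : D ≠ 0 := by
    intro h0
    have e : X ^ 2 * D = (X * derivative A) * (X * B) - A * (X * derivative (X * B)) +
        A * (X * B) := by
      rw [hD]; simp only [derivative_mul, derivative_X]; ring
    rw [h0, mul_zero] at e
    have e2 := congrArg (fun p : F[X] => p.coeff (n ^ 2 + n ^ 2)) e
    simp only [coeff_zero, coeff_add, coeff_sub] at e2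
    obtain ⟨a1, a2⟩ := hX A h.deg.le
    obtain ⟨b1, b2⟩ := hX (X * B) h.degB
    rw [coeff_mul_add_eq_of_natDegree_le a1 h.degB, coeff_mul_add_eq_of_natDegree_le h.deg.le b1,
      coeff_mul_add_eq_of_natDegree_le h.deg.le h.degB, a2, b2, h.coeffB] at e2
    have hA1 : A.coeff (n ^ 2) = 1 := by rw [← h.deg]; exact h.monic.coeff_natDegree
    rw [hA1] at e2
    apply pow_ne_zero 2 hn
    linear_combination -e2
  refine Set.Finite.subset ((finite_setOfPred_isRoot hD0).image fun x ↦ A.eval x / B.eval x) ?_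
  rintro c ⟨x, h1, h2⟩
  simp only [derivative_sub, derivative_mul, derivative_C, zero_mul, zero_add, eval_sub, eval_mul,
    eval_C] at h1 h2
  have hB : B.eval x ≠ 0 := by
    intro hB
    rw [hB, mul_zero, sub_zero] at h1
    exact h.cop x h1 hB
  refine ⟨x, ?_, ?_⟩
  · simp only [Set.mem_ofPred_eq, IsRoot.def, hD, eval_sub, eval_mul]
    linear_combination B.eval x * h2 - (derivative B).eval x * h1
  · field_simp
    linear_combination h1

/-- **The number of `n`-torsion points** of an elliptic curve over an algebraically closed field in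
which `n` is invertible is `n²`. -/
theorem card_nsmul_eq_zero {n : ℕ} (hn : (n : F) ≠ 0) :
    Nat.card {P : W.toAffine.Point // n • P = 0} = n ^ 2 := by
  classical
  have hn0 : n ≠ 0 := by rintro rfl; simp at hn
  have hinf : Infinite F := IsAlgClosed.instInfinite
  obtain ⟨A, B, h⟩ := exists_isMulX (W := W) n
  obtain ⟨A₂, B₂, h2⟩ := exists_isMulX (W := W) 2
  have hB₂ := h2.B_ne_zero two_ne_zero
  -- choose a good `c`
  obtain ⟨c, hc⟩ : ∃ c, c ∉ {c : F | ∃ x, (A - C c * B).eval x = 0 ∧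
      (derivative (A - C c * B)).eval x = 0} ∪ {c | IsRoot B₂ c} :=
    ((h.finite_bad hn).union (finite_setOfPred_isRoot hB₂)).exists_notMem
  rw [Set.mem_union, not_or] at hc
  obtain ⟨hc1, hc2⟩ := hc
  obtain ⟨d, hcd⟩ := exists_nonsingular (W := W) c
  set Q : W.toAffine.Point := Point.some c d hcd with hQ
  have h2Q : 2 • Q ≠ 0 := fun h0 ↦ hc2 ((h2.nsmul_eq_zero_iff hcd).mp h0)
  have hQneg : Q ≠ -Q := by
    intro h0
    apply h2Q
    rw [two_nsmul]
    nth_rewrite 1 [h0]
    exact neg_add_cancel Q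
  obtain ⟨hm, hd⟩ := h.monic_sub c hn0
  -- the polynomial is separable
  have hsep : (A - C c * B).Separable := by
    rw [separable_def, isCoprime_iff_aeval_ne_zero_of_isAlgClosed F F]
    intro a
    by_contra hcon
    push Not at hcon
    exact hc1 ⟨a, by simpa using hcon.1, by simpa using hcon.2⟩
  have hcard : (A - C c * B).roots.toFinset.card = n ^ 2 := by
    rw [Multiset.toFinset_card_of_nodup (nodup_roots hsep), ← hd]
    exact (IsAlgClosed.splits (A - C c * B)).natDegree_eq_card_roots.symm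
  -- the fibre over `Q`
  have hfib : Nat.card {P : W.toAffine.Point // n • P = Q} = n ^ 2 := by
    rw [← hcard, ← Nat.card_eq_finsetCard]
    have hR : ∀ x, x ∈ (A - C c * B).roots.toFinset ↔ (A - C c * B).eval x = 0 := by
      intro x
      rw [Multiset.mem_toFinset, mem_roots hm.ne_zero, IsRoot.def]
    have hf : ∀ P : {P : W.toAffine.Point // n • P = Q}, ∃ x y, ∃ hxy : W.toAffine.Nonsingular x y,
        P.1 = Point.some x y hxy ∧ (A - C c * B).eval x = 0 := by
      rintro ⟨P, hP⟩
      rcases P with _ | ⟨x, y, hxy⟩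
      · exfalso
        change n • (0 : W.toAffine.Point) = Q at hP
        rw [smul_zero] at hP
        exact some_ne_zero hcd hP.symm
      · exact ⟨x, y, hxy, rfl, (h.nsmul_xRep_eq_iff hxy).mp (by rw [hP]; rfl)⟩
    refine Nat.card_congr (Equiv.ofBijective (fun P ↦ ⟨P.1.xRep 0, ?_⟩) ⟨?_, ?_⟩)
    · obtain ⟨x, y, hxy, e1, e2⟩ := hf P
      rw [e1, hR]
      simpa using e2
    · intro P P' hPP'
      simp only [Fin.isValue, Subtype.mk.injEq] at hPP'
      obtain ⟨x, y, hxy, e1, e2⟩ := hf P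
      obtain ⟨x', y', hxy', e1', e2'⟩ := hf P'
      have : P.1.xRep = P'.1.xRep := by
        rw [e1, e1'] at hPP' ⊢
        simp only [xRep_some, Matrix.cons_val_zero] at hPP' ⊢
        rw [hPP']
      rcases eq_or_eq_neg_of_xRep_eq_xRep this with h3 | h3
      · exact Subtype.ext h3
      · exfalso
        apply hQneg
        rw [← P.2]
        nth_rewrite 1 [h3]
        rw [smul_neg, P'.2, P.2]
    · rintro ⟨x, hx⟩
      rw [hR] at hx
      obtain ⟨y, hxy⟩ := exists_nonsingular (W := W) x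
      have h4 : (n • Point.some x y hxy).xRep = Q.xRep :=
        (h.nsmul_xRep_eq_iff hxy).mpr hx
      rcases eq_or_eq_neg_of_xRep_eq_xRep h4 with h5 | h5
      · exact ⟨⟨_, h5⟩, Subtype.ext (by simp)⟩
      · exact ⟨⟨-Point.some x y hxy, by rw [smul_neg, h5, neg_neg]⟩, Subtype.ext (by simp [neg_some])⟩
  rw [← hfib]
  obtain ⟨P₀, hP₀⟩ := nsmul_surjective (W := W) hn0 Q
  refine Nat.card_congr ⟨fun P ↦ ⟨P.1 + P₀, ?_⟩, fun P ↦ ⟨P.1 - P₀, ?_⟩, fun P ↦ ?_, fun P ↦ ?_⟩
  · rw [smul_add, P.2, hP₀, zero_add]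
  · rw [smul_sub, P.2, hP₀, sub_self]
  · simp
  · simp

end Fermat.Agent.EllTorsion
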