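import Mathlib

set_option autoImplicit false
set_option linter.unusedSectionVars false
set_option linter.unusedSimpArgs false

namespace Fermat.Agent.EllTorsion

section Ward

variable {K : Type*} [CommRing K]

/-- the elliptic relation (Ward) for a sequence `W`. -/
def RelR (W : ℤ → K) (m n : ℤ) : Prop :=
  W (m + n) * W (m - n) = W (m + 1) * W (m - 1) * W n ^ 2 - W (n + 1) * W (n - 1) * W m ^ 2

/-- the invariant relation for a Somos-4 sequence. -/
def RelJ (W : ℤ → K) (b c d : K) (n : ℤ) : Prop :=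
  c * (W (n + 2) * W (n - 1) ^ 2 + W (n - 2) * W (n + 1) ^ 2 + b ^ 2 * W n ^ 3) =
    (d + b ^ 4) * (W (n - 1) * W n * W (n + 1))

/-- Somos-4 relation. -/
def RelS (W : ℤ → K) (b c : K) (n : ℤ) : Prop :=
  W (n + 2) * W (n - 2) = b ^ 2 * (W (n + 1) * W (n - 1)) - c * W n ^ 2

variable [IsDomain K]

lemma symm_identity {b c d : K} (hc : c ≠ 0) {W : ℤ → K} {m k : ℤ}
    (Sm : RelS W b c m) (Jm : RelJ W b c d m) (Sk : RelS W b c k) (Jk : RelJ W b c d k) :
    (W (m + 1) * W (m - 1) * W (k + 1) ^ 2 - W (k + 2) * W k * W m ^ 2) *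
      (W (m + 1) * W (m - 1) * W (k - 1) ^ 2 - W k * W (k - 2) * W m ^ 2) =
    (W (m + 2) * W m * W k ^ 2 - W (k + 1) * W (k - 1) * W (m + 1) ^ 2) *
      (W m * W (m - 2) * W k ^ 2 - W (k + 1) * W (k - 1) * W (m - 1) ^ 2) := by
  unfold RelS RelJ at *
  apply mul_left_cancel₀ hc
  linear_combination (c * W k ^ 2 * W m ^ 4) * Sk - (c * W m ^ 2 * W k ^ 4) * Sm
    - (W (m + 1) * W (m - 1) * W m ^ 2 * W k) * Jk + (W (k + 1) * W (k - 1) * W k ^ 2 * W m) * Jm

lemma RelJ.succ {b c d : K} {W : ℤ → K} {n : ℤ} (hn : W (n - 1) ≠ 0)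
    (Jn : RelJ W b c d n) (Sn : RelS W b c n) (Sn1 : RelS W b c (n + 1)) :
    RelJ W b c d (n + 1) := by
  unfold RelS RelJ at *
  have e1 : n + 1 + 2 = n + 3 := by ring
  have e2 : n + 1 - 2 = n - 1 := by ring
  have e3 : n + 1 + 1 = n + 2 := by ring
  have e4 : n + 1 - 1 = n := by ring
  rw [e1, e2, e3, e4] at Sn1
  rw [e1, e2, e3, e4]
  apply mul_left_cancel₀ hn
  linear_combination (W (n + 2)) * Jn + (c * W n ^ 2) * Sn1 - (c * W (n + 1) ^ 2) * Sn

lemma RelR.step {b c d : K} (hc : c ≠ 0) {W : ℤ → K} {m k : ℤ}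
    (Sm : RelS W b c m) (Jm : RelJ W b c d m) (Sk : RelS W b c k) (Jk : RelJ W b c d k)
    (h1 : RelR W m (k - 1)) (h2 : RelR W (m - 1) k) (h3 : RelR W m (k + 1))
    (n1 : W (m + k - 1) ≠ 0) (n2 : W (m - k - 1) ≠ 0) : RelR W (m + 1) k := by
  have key := symm_identity hc Sm Jm Sk Jk
  unfold RelR at *
  have e1 : m + (k - 1) = m + k - 1 := by ring
  have e2 : m - (k - 1) = m - k + 1 := by ring
  have e3 : k - 1 + 1 = k := by ring
  have e4 : k - 1 - 1 = k - 2 := by ring
  have e5 : m - 1 + k = m + k - 1 := by ring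
  have e6 : m - 1 - k = m - k - 1 := by ring
  have e7 : m - 1 + 1 = m := by ring
  have e8 : m - 1 - 1 = m - 2 := by ring
  have e9 : m + (k + 1) = m + k + 1 := by ring
  have e10 : m - (k + 1) = m - k - 1 := by ring
  have e11 : k + 1 + 1 = k + 2 := by ring
  have e12 : k + 1 - 1 = k := by ring
  have e13 : m + 1 + k = m + k + 1 := by ring
  have e14 : m + 1 - k = m - k + 1 := by ring
  have e15 : m + 1 + 1 = m + 2 := by ring
  have e16 : m + 1 - 1 = m := by ring
  rw [e1, e2, e3, e4] at h1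
  rw [e5, e6, e7, e8] at h2
  rw [e9, e10, e11, e12] at h3
  rw [e13, e14, e15, e16]
  apply mul_left_cancel₀ (mul_ne_zero n1 n2)
  rw [← h1, ← h2, ← h3] at key
  linear_combination key

/-- The data of a normalised EDS (duplication recurrences) with nonzero terms. -/
structure IsNonvanishingEDS (W : ℤ → K) (b c d : K) : Prop where
  zero : W 0 = 0
  one : W 1 = 1
  two : W 2 = b
  three : W 3 = c
  four : W 4 = d * b
  neg : ∀ n, W (-n) = - W n
  even : ∀ m, W (2 * m) * b =
    W (m - 1) ^ 2 * W m * W (m + 2) - W (m - 2) * W m * W (m + 1) ^ 2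
  odd : ∀ m, W (2 * m + 1) = W (m + 2) * W m ^ 3 - W (m - 1) * W (m + 1) ^ 3
  ne : ∀ n, n ≠ 0 → W n ≠ 0

namespace IsNonvanishingEDS

variable {W : ℤ → K} {b c d : K} (h : IsNonvanishingEDS W b c d)

include h

lemma c_ne : c ≠ 0 := h.three ▸ h.ne 3 (by norm_num)

lemma relR_zero (a : ℤ) : RelR W a 0 := by
  unfold RelR
  have : W (0 - 1) = -1 := by rw [zero_sub, h.neg, h.one]
  rw [add_zero, sub_zero, h.zero, zero_add, h.one, this]; ring

lemma relR_one (a : ℤ) : RelR W a 1 := by
  unfold RelR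
  rw [h.one, show (1 : ℤ) - 1 = 0 by ring, h.zero]; ring

lemma relS_one : RelS W b c 1 := by
  unfold RelS
  rw [show (1 : ℤ) + 2 = 3 by ring, show (1 : ℤ) - 2 = -1 by ring, h.neg, h.three, h.one,
    show (1 : ℤ) - 1 = 0 by ring, h.zero]; ring

lemma relS_two : RelS W b c 2 := by
  unfold RelS
  rw [show (2 : ℤ) + 2 = 4 by ring, show (2 : ℤ) - 2 = 0 by ring, h.zero, h.four,
    show (2 : ℤ) + 1 = 3 by ring, show (2 : ℤ) - 1 = 1 by ring, h.one, h.three, h.two]; ring

lemma relJ_one : RelJ W b c d 1 := by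
  unfold RelJ
  rw [show (1 : ℤ) + 2 = 3 by ring, show (1 : ℤ) - 2 = -1 by ring, h.neg, h.three, h.one,
    show (1 : ℤ) - 1 = 0 by ring, show (1 : ℤ) + 1 = 2 by ring, h.two, h.zero]; ring

lemma relJ_two : RelJ W b c d 2 := by
  unfold RelJ
  rw [show (2 : ℤ) + 2 = 4 by ring, show (2 : ℤ) - 2 = 0 by ring, h.zero, h.four,
    show (2 : ℤ) + 1 = 3 by ring, show (2 : ℤ) - 1 = 1 by ring, h.one, h.three, h.two]; ring

lemma relR_dup_odd (n : ℤ) : RelR W (n + 1) n := by
  unfold RelR
  rw [show n + 1 + n = 2 * n + 1 by ring, show n + 1 - n = 1 by ring, h.odd, h.one,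
    show n + 1 + 1 = n + 2 by ring, show n + 1 - 1 = n by ring]; ring

lemma relR_dup_even (n : ℤ) : RelR W (n + 1) (n - 1) := by
  unfold RelR
  rw [show n + 1 + (n - 1) = 2 * n by ring, show n + 1 - (n - 1) = 2 by ring, h.two, h.even,
    show n + 1 + 1 = n + 2 by ring, show n + 1 - 1 = n by ring, show n - 1 + 1 = n by ring,
    show n - 1 - 1 = n - 2 by ring]; ring

lemma relS_of_relR {n : ℤ} (hR : RelR W n 2) : RelS W b c n := by
  unfold RelR at hR
  unfold RelS
  rw [show (2 : ℤ) + 1 = 3 by ring, show (2 : ℤ) - 1 = 1 by ring, h.one, h.three, h.two] at hR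
  rw [hR]; ring

/-- the main induction. -/
lemma main (L : ℕ) : (∀ a k : ℤ, 0 ≤ k → k < a → a + k ≤ L → RelR W a k) ∧
    (∀ n : ℤ, 1 ≤ n → n + 2 ≤ L → RelS W b c n ∧ RelJ W b c d n) := by
  induction L with
  | zero =>
    refine ⟨fun a k h1 h2 h3 => ?_, fun n h1 h2 => ?_⟩ <;> push_cast at * <;> omega
  | succ L ih =>
    obtain ⟨ihR, ihS⟩ := ih
    -- the antidiagonal
    have antidiag : ∀ (e : ℕ) (a k : ℤ), 0 ≤ k → k < a → a + k = (L : ℤ) + 1 → a - k ≤ e →
        RelR W a k := by
      intro e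
      induction e with
      | zero => intro a k h1 h2 h3 h4; push_cast at h4; omega
      | succ e ihe =>
        intro a k h1 h2 h3 h4
        by_cases hk : k < 2
        · obtain hk | hk : k = 0 ∨ k = 1 := by omega
          · subst hk; exact h.relR_zero a
          · subst hk; exact h.relR_one a
        push Not at hk
        by_cases hak : a - k ≤ 2
        · obtain hak | hak : a = k + 1 ∨ a = k + 1 + 1 := by omega
          · subst hak; exact h.relR_dup_odd k
          · subst hak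
            have := h.relR_dup_even (k + 1)
            rwa [show k + 1 - 1 = k by ring] at this
        push Not at hak
        have Sm := ihS (a - 1) (by omega) (by omega)
        have Sk := ihS k (by omega) (by omega)
        have r1 : RelR W (a - 1) (k - 1) := ihR _ _ (by omega) (by omega) (by omega)
        have r2 : RelR W (a - 1 - 1) k := ihR _ _ (by omega) (by omega) (by omega)
        have r3 : RelR W (a - 1) (k + 1) := ihe _ _ (by omega) (by omega) (by omega)
          (by push_cast at h4; omega)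
        have := RelR.step h.c_ne Sm.1 Sm.2 Sk.1 Sk.2 r1 r2 r3 (h.ne _ (by omega))
          (h.ne _ (by omega))
        rwa [show a - 1 + 1 = a by ring] at this
    have hR : ∀ a k : ℤ, 0 ≤ k → k < a → a + k ≤ ((L + 1 : ℕ) : ℤ) → RelR W a k := by
      intro a k h1 h2 h3
      push_cast at h3
      by_cases hL : a + k ≤ L
      · exact ihR a k h1 h2 hL
      · exact antidiag (a - k).toNat a k h1 h2 (by omega) (by omega)
    refine ⟨hR, fun n h1 h2 => ?_⟩
    push_cast at h2
    by_cases hL : n + 2 ≤ L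
    · exact ihS n h1 hL
    by_cases hn1 : n = 1
    · subst hn1; exact ⟨h.relS_one, h.relJ_one⟩
    by_cases hn2 : n = 2
    · subst hn2; exact ⟨h.relS_two, h.relJ_two⟩
    have S := h.relS_of_relR (hR n 2 (by omega) (by omega) (by push_cast; omega))
    refine ⟨S, ?_⟩
    have prev := ihS (n - 1) (by omega) (by omega)
    have := RelJ.succ (n := n - 1) (h.ne _ (by omega)) prev.2 prev.1
      (by rwa [show n - 1 + 1 = n by ring])
    rwa [show n - 1 + 1 = n by ring] at this

lemma relS_pos (n : ℤ) (hn : 1 ≤ n) : RelS W b c n :=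
  ((h.main (n + 2).toNat).2 n hn (by omega)).1

lemma relJ_pos (n : ℤ) (hn : 1 ≤ n) : RelJ W b c d n :=
  ((h.main (n + 2).toNat).2 n hn (by omega)).2

lemma relR_pos (a k : ℤ) (hk : 0 ≤ k) (hka : k < a) : RelR W a k :=
  (h.main (a + k).toNat).1 a k hk hka (by omega)

lemma relS (n : ℤ) : RelS W b c n := by
  rcases lt_trichotomy n 0 with hn | rfl | hn
  · have := h.relS_pos (-n) (by omega)
    unfold RelS at *
    rw [show n + 2 = -(-n - 2) by ring, show n - 2 = -(-n + 2) by ring,
      show n + 1 = -(-n - 1) by ring, show n - 1 = -(-n + 1) by ring, h.neg, h.neg, h.neg, h.neg]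
    have e : W n = - W (-n) := by rw [h.neg]; ring
    rw [e]
    linear_combination this
  · unfold RelS
    rw [show (0 : ℤ) - 2 = -2 by ring, show (0 : ℤ) - 1 = -1 by ring, h.neg, h.neg, zero_add,
      zero_add, h.one, h.two, h.zero]; ring
  · exact h.relS_pos n hn

lemma relJ (n : ℤ) : RelJ W b c d n := by
  rcases lt_trichotomy n 0 with hn | rfl | hn
  · have := h.relJ_pos (-n) (by omega)
    unfold RelJ at *
    rw [show n + 2 = -(-n - 2) by ring, show n - 2 = -(-n + 2) by ring,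
      show n + 1 = -(-n - 1) by ring, show n - 1 = -(-n + 1) by ring, h.neg, h.neg, h.neg, h.neg]
    have e : W n = - W (-n) := by rw [h.neg]; ring
    rw [e]
    linear_combination -this
  · unfold RelJ
    rw [show (0 : ℤ) - 2 = -2 by ring, show (0 : ℤ) - 1 = -1 by ring, h.neg, h.neg, zero_add,
      zero_add, h.one, h.two, h.zero]; ring
  · exact h.relJ_pos n hn

end IsNonvanishingEDS

end Ward

section Universal

open MvPolynomial

/-- the universal ring `ℤ[b, c, d]`. -/
abbrev UnivRing := MvPolynomial (Fin 3) ℤ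

lemma normEDS_int (n : ℤ) : normEDS (2 : ℤ) 3 2 n = n := by
  have key : ∀ n : ℕ, normEDS (2 : ℤ) 3 2 n = n := by
    intro n
    induction n using normEDSRec with
    | zero => simp
    | one => simp
    | two => simp
    | three => simp
    | four => simp
    | even m h1 h2 h3 h4 h5 =>
      have := normEDS_even (2 : ℤ) 3 2 ((m : ℤ) + 3)
      rw [show (m : ℤ) + 3 - 1 = ((m + 2 : ℕ) : ℤ) by push_cast; ring,
        show (m : ℤ) + 3 + 2 = ((m + 5 : ℕ) : ℤ) by push_cast; ring,
        show (m : ℤ) + 3 - 2 = ((m + 1 : ℕ) : ℤ) by push_cast; ring,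
        show (m : ℤ) + 3 + 1 = ((m + 4 : ℕ) : ℤ) by push_cast; ring,
        show (m : ℤ) + 3 = ((m + 3 : ℕ) : ℤ) by push_cast; ring, h1, h2, h3, h4, h5] at this
      push_cast at this ⊢
      have h' : normEDS (2 : ℤ) 3 2 (2 * (m + 3)) * 2 = (2 * (m + 3)) * 2 := by
        rw [this]; ring
      linarith
    | odd m h1 h2 h3 h4 =>
      have := normEDS_odd (2 : ℤ) 3 2 ((m : ℤ) + 2)
      rw [show (m : ℤ) + 2 - 1 = ((m + 1 : ℕ) : ℤ) by push_cast; ring,
        show (m : ℤ) + 2 + 2 = ((m + 4 : ℕ) : ℤ) by push_cast; ring,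
        show (m : ℤ) + 2 + 1 = ((m + 3 : ℕ) : ℤ) by push_cast; ring,
        show (m : ℤ) + 2 = ((m + 2 : ℕ) : ℤ) by push_cast; ring, h1, h2, h3, h4] at this
      push_cast at this ⊢
      rw [this]; ring
  rcases Int.eq_nat_or_neg n with ⟨k, rfl | rfl⟩
  · exact key k
  · rw [normEDS_neg, key]

lemma univ_normEDS_ne_zero (n : ℤ) (hn : n ≠ 0) :
    normEDS (X 0 : UnivRing) (X 1) (X 2) n ≠ 0 := by
  intro h
  have := congrArg (MvPolynomial.aeval ![(2 : ℤ), 3, 2]) h
  rw [map_normEDS, map_zero] at this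
  simp only [aeval_X, Matrix.cons_val] at this
  rw [normEDS_int] at this
  exact hn this

lemma univ_isNonvanishingEDS :
    IsNonvanishingEDS (normEDS (X 0 : UnivRing) (X 1) (X 2)) (X 0) (X 1) (X 2) where
  zero := normEDS_zero _ _ _
  one := normEDS_one _ _ _
  two := normEDS_two _ _ _
  three := normEDS_three _ _ _
  four := normEDS_four _ _ _
  neg := normEDS_neg _ _ _
  even := normEDS_even _ _ _
  odd := normEDS_odd _ _ _
  ne := univ_normEDS_ne_zero

variable {R : Type*} [CommRing R] (b c d : R)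

/-- specialisation from the universal ring. -/
lemma relS_normEDS (n : ℤ) : RelS (normEDS b c d) b c n := by
  have h := univ_isNonvanishingEDS.relS n
  unfold RelS at *
  have := congrArg (MvPolynomial.aeval ![b, c, d]) h
  simp only [map_mul, map_sub, map_pow, map_normEDS, aeval_X, Matrix.cons_val] at this
  exact this

lemma relJ_normEDS (n : ℤ) : RelJ (normEDS b c d) b c d n := by
  have h := univ_isNonvanishingEDS.relJ n
  unfold RelJ at *
  have := congrArg (MvPolynomial.aeval ![b, c, d]) h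
  simp only [map_mul, map_add, map_sub, map_pow, map_normEDS, aeval_X, Matrix.cons_val] at this
  exact this

lemma relR_normEDS_of_pos (a k : ℤ) (hk : 0 ≤ k) (hka : k < a) : RelR (normEDS b c d) a k := by
  have h := univ_isNonvanishingEDS.relR_pos a k hk hka
  unfold RelR at *
  have := congrArg (MvPolynomial.aeval ![b, c, d]) h
  simp only [map_mul, map_add, map_sub, map_pow, map_normEDS, aeval_X, Matrix.cons_val] at this
  exact this

/-- J relation with the invariant `κ`, in the universal ring, for `d = κ c - b ^ 4`. -/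
lemma relJ_kappa (κ : R) (n : ℤ) :
    normEDS b c (κ * c - b ^ 4) (n + 2) * normEDS b c (κ * c - b ^ 4) (n - 1) ^ 2 +
      normEDS b c (κ * c - b ^ 4) (n - 2) * normEDS b c (κ * c - b ^ 4) (n + 1) ^ 2 +
      b ^ 2 * normEDS b c (κ * c - b ^ 4) n ^ 3 =
    κ * (normEDS b c (κ * c - b ^ 4) (n - 1) * normEDS b c (κ * c - b ^ 4) n *
      normEDS b c (κ * c - b ^ 4) (n + 1)) := by
  have h := relJ_normEDS (X 0 : UnivRing) (X 1) (X 2 * X 1 - X 0 ^ 4) n
  unfold RelJ at h
  have h1 : (X 1 : UnivRing) ≠ 0 := MvPolynomial.X_ne_zero 1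
  have h2 := mul_left_cancel₀ h1 (h.trans (by ring :
    (X 2 * X 1 - X 0 ^ 4 + X 0 ^ 4) * _ = (X 1 : UnivRing) * (X 2 *
      (normEDS (X 0 : UnivRing) (X 1) (X 2 * X 1 - X 0 ^ 4) (n - 1) *
        normEDS (X 0 : UnivRing) (X 1) (X 2 * X 1 - X 0 ^ 4) n *
        normEDS (X 0 : UnivRing) (X 1) (X 2 * X 1 - X 0 ^ 4) (n + 1)))))
  have := congrArg (MvPolynomial.aeval ![b, c, κ]) h2
  simp only [map_mul, map_add, map_sub, map_pow, map_normEDS, aeval_X, Matrix.cons_val] at this
  exact this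

/-- the ring hom `ℤ[B, c, κ] → ℤ[b, c, κ]`, `B ↦ b ^ 4`. -/
noncomputable def fourthHom : UnivRing →ₐ[ℤ] UnivRing :=
  MvPolynomial.aeval ![X 0 ^ 4, X 1, X 2]

lemma fourthHom_injective : Function.Injective fourthHom := by
  have : (MvPolynomial.aeval ![(X 0 : UnivRing), X 1 ^ 4, X 2 ^ 4]).comp fourthHom =
      MvPolynomial.expand 4 := by
    apply MvPolynomial.algHom_ext
    intro i
    fin_cases i <;> simp [fourthHom]
  have hinj := MvPolynomial.expand_injective (R := ℤ) (σ := Fin 3) (n := 4) (by norm_num)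
  intro p q hpq
  apply hinj
  rw [← this, AlgHom.comp_apply, AlgHom.comp_apply, hpq]

/-- Relations for `preNormEDS`, even case. -/
lemma pre_relS_even (B c κ : R) (n : ℤ) (hn : Even n) :
    preNormEDS B c (κ * c - B) (n + 2) * preNormEDS B c (κ * c - B) (n - 2) =
      preNormEDS B c (κ * c - B) (n + 1) * preNormEDS B c (κ * c - B) (n - 1) -
        c * preNormEDS B c (κ * c - B) n ^ 2 := by
  have h := relS_normEDS (X 0 : UnivRing) (X 1) (X 2 * X 1 - X 0 ^ 4) n
  unfold RelS at h
  have h1 : (X 0 : UnivRing) ≠ 0 := MvPolynomial.X_ne_zero 0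
  have e2 : Even (n + 2) := by simp [Int.even_add, hn]
  have e3 : Even (n - 2) := by simp [Int.even_sub, hn]
  have e4 : ¬ Even (n + 1) := by simp [Int.even_add, hn]
  have e5 : ¬ Even (n - 1) := by simp [Int.even_sub, hn]
  simp only [normEDS, if_pos hn, if_pos e2, if_pos e3, if_neg e4, if_neg e5, mul_one] at h
  have h2 : preNormEDS (X 0 : UnivRing) (X 1) (X 2 * X 1 - X 0) (n + 2) *
        preNormEDS (X 0 : UnivRing) (X 1) (X 2 * X 1 - X 0) (n - 2) =
      preNormEDS (X 0 : UnivRing) (X 1) (X 2 * X 1 - X 0) (n + 1) *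
        preNormEDS (X 0 : UnivRing) (X 1) (X 2 * X 1 - X 0) (n - 1) -
        X 1 * preNormEDS (X 0 : UnivRing) (X 1) (X 2 * X 1 - X 0) n ^ 2 := by
    apply fourthHom_injective
    simp only [map_mul, map_add, map_sub, map_pow, map_preNormEDS]
    simp only [fourthHom, aeval_X, Matrix.cons_val]
    apply mul_left_cancel₀ (pow_ne_zero 2 h1)
    linear_combination h
  have := congrArg (MvPolynomial.aeval ![B, c, κ]) h2
  simp only [map_mul, map_add, map_sub, map_pow, map_preNormEDS, aeval_X, Matrix.cons_val] at this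
  exact this

/-- Relations for `preNormEDS`, odd case. -/
lemma pre_relS_odd (B c κ : R) (n : ℤ) (hn : ¬ Even n) :
    preNormEDS B c (κ * c - B) (n + 2) * preNormEDS B c (κ * c - B) (n - 2) =
      B * (preNormEDS B c (κ * c - B) (n + 1) * preNormEDS B c (κ * c - B) (n - 1)) -
        c * preNormEDS B c (κ * c - B) n ^ 2 := by
  have h := relS_normEDS (X 0 : UnivRing) (X 1) (X 2 * X 1 - X 0 ^ 4) n
  unfold RelS at h
  have e2 : ¬ Even (n + 2) := by simpa [Int.even_add] using hn
  have e3 : ¬ Even (n - 2) := by simpa [Int.even_sub] using hn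
  have e4 : Even (n + 1) := by simpa [Int.even_add] using hn
  have e5 : Even (n - 1) := by simpa [Int.even_sub] using hn
  simp only [normEDS, if_neg hn, if_neg e2, if_neg e3, if_pos e4, if_pos e5, mul_one] at h
  have h2 : preNormEDS (X 0 : UnivRing) (X 1) (X 2 * X 1 - X 0) (n + 2) *
        preNormEDS (X 0 : UnivRing) (X 1) (X 2 * X 1 - X 0) (n - 2) =
      X 0 * (preNormEDS (X 0 : UnivRing) (X 1) (X 2 * X 1 - X 0) (n + 1) *
        preNormEDS (X 0 : UnivRing) (X 1) (X 2 * X 1 - X 0) (n - 1)) -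
        X 1 * preNormEDS (X 0 : UnivRing) (X 1) (X 2 * X 1 - X 0) n ^ 2 := by
    apply fourthHom_injective
    simp only [map_mul, map_add, map_sub, map_pow, map_preNormEDS]
    simp only [fourthHom, aeval_X, Matrix.cons_val]
    linear_combination h
  have := congrArg (MvPolynomial.aeval ![B, c, κ]) h2
  simp only [map_mul, map_add, map_sub, map_pow, map_preNormEDS, aeval_X, Matrix.cons_val] at this
  exact this

lemma pre_relJ_even (B c κ : R) (n : ℤ) (hn : Even n) :
    preNormEDS B c (κ * c - B) (n + 2) * preNormEDS B c (κ * c - B) (n - 1) ^ 2 +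
      preNormEDS B c (κ * c - B) (n - 2) * preNormEDS B c (κ * c - B) (n + 1) ^ 2 +
      B * preNormEDS B c (κ * c - B) n ^ 3 =
    κ * (preNormEDS B c (κ * c - B) (n - 1) * preNormEDS B c (κ * c - B) n *
      preNormEDS B c (κ * c - B) (n + 1)) := by
  have h := relJ_kappa (X 0 : UnivRing) (X 1) (X 2) n
  have h1 : (X 0 : UnivRing) ≠ 0 := MvPolynomial.X_ne_zero 0
  have e2 : Even (n + 2) := by simp [Int.even_add, hn]
  have e3 : Even (n - 2) := by simp [Int.even_sub, hn]
  have e4 : ¬ Even (n + 1) := by simp [Int.even_add, hn]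
  have e5 : ¬ Even (n - 1) := by simp [Int.even_sub, hn]
  simp only [normEDS, if_pos hn, if_pos e2, if_pos e3, if_neg e4, if_neg e5, mul_one] at h
  have h2 : preNormEDS (X 0 : UnivRing) (X 1) (X 2 * X 1 - X 0) (n + 2) *
        preNormEDS (X 0 : UnivRing) (X 1) (X 2 * X 1 - X 0) (n - 1) ^ 2 +
      preNormEDS (X 0 : UnivRing) (X 1) (X 2 * X 1 - X 0) (n - 2) *
        preNormEDS (X 0 : UnivRing) (X 1) (X 2 * X 1 - X 0) (n + 1) ^ 2 +
        X 0 * preNormEDS (X 0 : UnivRing) (X 1) (X 2 * X 1 - X 0) n ^ 3 =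
      X 2 * (preNormEDS (X 0 : UnivRing) (X 1) (X 2 * X 1 - X 0) (n - 1) *
        preNormEDS (X 0 : UnivRing) (X 1) (X 2 * X 1 - X 0) n *
        preNormEDS (X 0 : UnivRing) (X 1) (X 2 * X 1 - X 0) (n + 1)) := by
    apply fourthHom_injective
    simp only [map_mul, map_add, map_sub, map_pow, map_preNormEDS]
    simp only [fourthHom, aeval_X, Matrix.cons_val]
    apply mul_left_cancel₀ h1
    linear_combination h
  have := congrArg (MvPolynomial.aeval ![B, c, κ]) h2
  simp only [map_mul, map_add, map_sub, map_pow, map_preNormEDS, aeval_X, Matrix.cons_val] at this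
  exact this

lemma pre_relJ_odd (B c κ : R) (n : ℤ) (hn : ¬ Even n) :
    preNormEDS B c (κ * c - B) (n + 2) * preNormEDS B c (κ * c - B) (n - 1) ^ 2 +
      preNormEDS B c (κ * c - B) (n - 2) * preNormEDS B c (κ * c - B) (n + 1) ^ 2 +
      preNormEDS B c (κ * c - B) n ^ 3 =
    κ * (preNormEDS B c (κ * c - B) (n - 1) * preNormEDS B c (κ * c - B) n *
      preNormEDS B c (κ * c - B) (n + 1)) := by
  have h := relJ_kappa (X 0 : UnivRing) (X 1) (X 2) n
  have h1 : (X 0 : UnivRing) ≠ 0 := MvPolynomial.X_ne_zero 0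
  have e2 : ¬ Even (n + 2) := by simpa [Int.even_add] using hn
  have e3 : ¬ Even (n - 2) := by simpa [Int.even_sub] using hn
  have e4 : Even (n + 1) := by simpa [Int.even_add] using hn
  have e5 : Even (n - 1) := by simpa [Int.even_sub] using hn
  simp only [normEDS, if_neg hn, if_neg e2, if_neg e3, if_pos e4, if_pos e5, mul_one] at h
  have h2 : preNormEDS (X 0 : UnivRing) (X 1) (X 2 * X 1 - X 0) (n + 2) *
        preNormEDS (X 0 : UnivRing) (X 1) (X 2 * X 1 - X 0) (n - 1) ^ 2 +
      preNormEDS (X 0 : UnivRing) (X 1) (X 2 * X 1 - X 0) (n - 2) *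
        preNormEDS (X 0 : UnivRing) (X 1) (X 2 * X 1 - X 0) (n + 1) ^ 2 +
        preNormEDS (X 0 : UnivRing) (X 1) (X 2 * X 1 - X 0) n ^ 3 =
      X 2 * (preNormEDS (X 0 : UnivRing) (X 1) (X 2 * X 1 - X 0) (n - 1) *
        preNormEDS (X 0 : UnivRing) (X 1) (X 2 * X 1 - X 0) n *
        preNormEDS (X 0 : UnivRing) (X 1) (X 2 * X 1 - X 0) (n + 1)) := by
    apply fourthHom_injective
    simp only [map_mul, map_add, map_sub, map_pow, map_preNormEDS]
    simp only [fourthHom, aeval_X, Matrix.cons_val]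
    apply mul_left_cancel₀ (pow_ne_zero 2 h1)
    linear_combination h
  have := congrArg (MvPolynomial.aeval ![B, c, κ]) h2
  simp only [map_mul, map_add, map_sub, map_pow, map_preNormEDS, aeval_X, Matrix.cons_val] at this
  exact this

end Universal

end Fermat.Agent.EllTorsion
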