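import Mathlib
import Fermat.Agent.EllTorsion.Ward

set_option autoImplicit false
set_option linter.unusedSimpArgs false

open Polynomial

namespace Fermat.Agent.EllTorsion

variable {R : Type*} [CommRing R] (W : WeierstrassCurve R)

/-- the invariant `κ = 6 X ^ 2 + b₂ X + b₄`. -/
noncomputable def kappa : R[X] := 6 * X ^ 2 + C W.b₂ * X + C W.b₄

lemma preΨ₄_eq : W.preΨ₄ = kappa W * W.Ψ₃ - W.Ψ₂Sq ^ 2 := by
  have h := congrArg (C (R := R)) W.b_relation
  simp only [map_mul, map_sub, map_pow, map_ofNat] at h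
  unfold kappa WeierstrassCurve.preΨ₄ WeierstrassCurve.Ψ₃ WeierstrassCurve.Ψ₂Sq
  simp only [map_mul, map_sub, map_pow, map_ofNat]
  linear_combination ((X : R[X]) ^ 2) * h

lemma preΨ_eq (n : ℤ) :
    W.preΨ n = preNormEDS (W.Ψ₂Sq ^ 2) W.Ψ₃ (kappa W * W.Ψ₃ - W.Ψ₂Sq ^ 2) n := by
  rw [← preΨ₄_eq]; rfl

lemma relS_even (n : ℤ) (hn : Even n) :
    W.preΨ (n + 2) * W.preΨ (n - 2) = W.preΨ (n + 1) * W.preΨ (n - 1) - W.Ψ₃ * W.preΨ n ^ 2 := by
  simp only [preΨ_eq]; exact pre_relS_even _ _ _ n hn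

lemma relS_odd (n : ℤ) (hn : ¬ Even n) :
    W.preΨ (n + 2) * W.preΨ (n - 2) =
      W.Ψ₂Sq ^ 2 * (W.preΨ (n + 1) * W.preΨ (n - 1)) - W.Ψ₃ * W.preΨ n ^ 2 := by
  simp only [preΨ_eq]; exact pre_relS_odd _ _ _ n hn

lemma relJ_even (n : ℤ) (hn : Even n) :
    W.preΨ (n + 2) * W.preΨ (n - 1) ^ 2 + W.preΨ (n - 2) * W.preΨ (n + 1) ^ 2 +
      W.Ψ₂Sq ^ 2 * W.preΨ n ^ 3 = kappa W * (W.preΨ (n - 1) * W.preΨ n * W.preΨ (n + 1)) := by
  simp only [preΨ_eq]; exact pre_relJ_even _ _ _ n hn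

lemma relJ_odd (n : ℤ) (hn : ¬ Even n) :
    W.preΨ (n + 2) * W.preΨ (n - 1) ^ 2 + W.preΨ (n - 2) * W.preΨ (n + 1) ^ 2 +
      W.preΨ n ^ 3 = kappa W * (W.preΨ (n - 1) * W.preΨ n * W.preΨ (n + 1)) := by
  simp only [preΨ_eq]; exact pre_relJ_odd _ _ _ n hn

/-- (I1) -/
lemma ΨSq_mul_ΨSq (n : ℤ) :
    W.ΨSq (n + 1) * W.ΨSq (n - 1) = (W.Φ n - X * W.ΨSq n) ^ 2 := by
  unfold WeierstrassCurve.ΨSq WeierstrassCurve.Φ WeierstrassCurve.ΨSq
  by_cases hn : Even n
  · have e4 : ¬ Even (n + 1) := by simp [Int.even_add, hn]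
    have e5 : ¬ Even (n - 1) := by simp [Int.even_sub, hn]
    simp only [if_pos hn, if_neg e4, if_neg e5]; ring
  · have e4 : Even (n + 1) := by simpa [Int.even_add] using hn
    have e5 : Even (n - 1) := by simpa [Int.even_sub] using hn
    simp only [if_neg hn, if_pos e4, if_pos e5]; ring

/-- (I2) -/
lemma Φ_mul_ΨSq_add (n : ℤ) :
    W.Φ (n + 1) * W.ΨSq (n - 1) + W.Φ (n - 1) * W.ΨSq (n + 1) =
      2 * (W.Φ n + X * W.ΨSq n) * (X * W.Φ n) + C W.b₂ * (X * W.Φ n) * W.ΨSq n +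
        C W.b₄ * (W.Φ n + X * W.ΨSq n) * W.ΨSq n + C W.b₆ * W.ΨSq n ^ 2 := by
  unfold WeierstrassCurve.Φ WeierstrassCurve.ΨSq
  have r1 : n + 1 + 1 = n + 2 := by ring
  have r2 : n - 1 - 1 = n - 2 := by ring
  have r3 : n + 1 - 1 = n := by ring
  have r4 : n - 1 + 1 = n := by ring
  rw [r1, r2, r3, r4]
  by_cases hn : Even n
  · have e4 : ¬ Even (n + 1) := by simp [Int.even_add, hn]
    have e5 : ¬ Even (n - 1) := by simp [Int.even_sub, hn]
    have hJ := relJ_even W n hn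
    simp only [if_pos hn, if_neg e4, if_neg e5]
    unfold kappa at hJ
    generalize W.preΨ (n + 2) = p2 at *
    generalize W.preΨ (n + 1) = p1 at *
    generalize W.preΨ n = p0 at *
    generalize W.preΨ (n - 1) = q1 at *
    generalize W.preΨ (n - 2) = q2 at *
    unfold WeierstrassCurve.Ψ₂Sq at *
    simp only [map_mul, map_ofNat] at *
    linear_combination (-(4 * X ^ 3 + C W.b₂ * X ^ 2 + 2 * C W.b₄ * X + C W.b₆) * p0) * hJ
  · have e4 : Even (n + 1) := by simpa [Int.even_add] using hn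
    have e5 : Even (n - 1) := by simpa [Int.even_sub] using hn
    have hJ := relJ_odd W n hn
    simp only [if_neg hn, if_pos e4, if_pos e5]
    unfold kappa at hJ
    generalize W.preΨ (n + 2) = p2 at *
    generalize W.preΨ (n + 1) = p1 at *
    generalize W.preΨ n = p0 at *
    generalize W.preΨ (n - 1) = q1 at *
    generalize W.preΨ (n - 2) = q2 at *
    unfold WeierstrassCurve.Ψ₂Sq at *
    simp only [map_mul, map_ofNat] at *
    linear_combination (-(4 * X ^ 3 + C W.b₂ * X ^ 2 + 2 * C W.b₄ * X + C W.b₆) * p0) * hJ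

/-- (I3) -/
lemma Φ_mul_Φ (n : ℤ) :
    W.Φ (n + 1) * W.Φ (n - 1) =
      (X * W.Φ n) ^ 2 - C W.b₄ * (X * W.Φ n) * W.ΨSq n -
        C W.b₆ * (W.Φ n + X * W.ΨSq n) * W.ΨSq n - C W.b₈ * W.ΨSq n ^ 2 := by
  unfold WeierstrassCurve.Φ WeierstrassCurve.ΨSq
  have r1 : n + 1 + 1 = n + 2 := by ring
  have r2 : n - 1 - 1 = n - 2 := by ring
  have r3 : n + 1 - 1 = n := by ring
  have r4 : n - 1 + 1 = n := by ring
  rw [r1, r2, r3, r4]
  by_cases hn : Even n
  · have e4 : ¬ Even (n + 1) := by simp [Int.even_add, hn]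
    have e5 : ¬ Even (n - 1) := by simp [Int.even_sub, hn]
    have hJ := relJ_even W n hn
    have hS := relS_even W n hn
    simp only [if_pos hn, if_neg e4, if_neg e5]
    unfold kappa at hJ
    generalize W.preΨ (n + 2) = p2 at *
    generalize W.preΨ (n + 1) = p1 at *
    generalize W.preΨ n = p0 at *
    generalize W.preΨ (n - 1) = q1 at *
    generalize W.preΨ (n - 2) = q2 at *
    unfold WeierstrassCurve.Ψ₂Sq WeierstrassCurve.Ψ₃ at *
    simp only [map_mul, map_ofNat] at *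
    linear_combination (-X * (4 * X ^ 3 + C W.b₂ * X ^ 2 + 2 * C W.b₄ * X + C W.b₆) * p0) * hJ +
      ((4 * X ^ 3 + C W.b₂ * X ^ 2 + 2 * C W.b₄ * X + C W.b₆) ^ 2 * p0 ^ 2) * hS
  · have e4 : Even (n + 1) := by simpa [Int.even_add] using hn
    have e5 : Even (n - 1) := by simpa [Int.even_sub] using hn
    have hJ := relJ_odd W n hn
    have hS := relS_odd W n hn
    simp only [if_neg hn, if_pos e4, if_pos e5]
    unfold kappa at hJ
    generalize W.preΨ (n + 2) = p2 at *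
    generalize W.preΨ (n + 1) = p1 at *
    generalize W.preΨ n = p0 at *
    generalize W.preΨ (n - 1) = q1 at *
    generalize W.preΨ (n - 2) = q2 at *
    unfold WeierstrassCurve.Ψ₂Sq WeierstrassCurve.Ψ₃ at *
    simp only [map_mul, map_ofNat] at *
    linear_combination (-X * (4 * X ^ 3 + C W.b₂ * X ^ 2 + 2 * C W.b₄ * X + C W.b₆) * p0) * hJ +
      (p0 ^ 2) * hS

end Fermat.Agent.EllTorsion
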