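import Fermat.Agent.EllTorsion.MulX
import Fermat.Agent.EllTorsion.DivPolyRel

set_option autoImplicit false

open WeierstrassCurve WeierstrassCurve.Affine WeierstrassCurve.Affine.Point
open Polynomial

namespace Fermat.Agent.EllTorsion

variable {F : Type*} [Field F] (W : WeierstrassCurve F) [DecidableEq F]
  [IsAlgClosed F] [W.IsElliptic]

/-- `x(nP) = Φ_n(x) / ΨSq_n(x)`. -/
theorem isMulX_Φ_ΨSq (n : ℕ) : IsMulX W n (W.Φ (n : ℤ)) (W.ΨSq (n : ℤ)) := by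
  apply isMulX_Φ_ΨSq_of
  · intro n
    have h := Φ_mul_Φ W ((n : ℤ) + 1)
    rw [show (n : ℤ) + 1 + 1 = ((n + 2 : ℕ) : ℤ) by push_cast; ring,
      show (n : ℤ) + 1 - 1 = (n : ℤ) by ring,
      show (n : ℤ) + 1 = ((n + 1 : ℕ) : ℤ) by push_cast; ring] at h
    rw [h]; ring
  · intro n
    have h := Φ_mul_ΨSq_add W ((n : ℤ) + 1)
    rw [show (n : ℤ) + 1 + 1 = ((n + 2 : ℕ) : ℤ) by push_cast; ring,
      show (n : ℤ) + 1 - 1 = (n : ℤ) by ring,
      show (n : ℤ) + 1 = ((n + 1 : ℕ) : ℤ) by push_cast; ring] at h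
    rw [h]; ring

end Fermat.Agent.EllTorsion
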