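import Mathlib

set_option autoImplicit false

/-!
# The addition-and-subtraction map on x-coordinates: the formula on points
-/

open WeierstrassCurve WeierstrassCurve.Affine WeierstrassCurve.Affine.Point

namespace Fermat.Agent.EllTorsion

variable {F : Type*} [Field F] (W : WeierstrassCurve F)

/-- evaluation of the add-sub map on a coordinate vector -/
noncomputable def addSubEval (v : Fin 3 → F) : Fin 3 → F :=
  fun i ↦ (addSubMap W i).eval v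

theorem addSubEval_eq (s t u : F) :
    addSubEval W ![s, t, u] =
      ![s ^ 2 - W.b₄ * s * u - W.b₆ * t * u - W.b₈ * u ^ 2,
        2 * t * s + W.b₂ * s * u + W.b₄ * t * u + W.b₆ * u ^ 2,
        t ^ 2 - 4 * s * u] := by
  funext i
  fin_cases i <;> simp [addSubEval, addSubMap]

variable {W}

/-- purely algebraic form of the generic add-sub identities -/
theorem addSub_identity (a₁ a₂ a₃ a₄ a₆ x₁ y₁ x₂ y₂ : F)
    (h₁ : y₁ ^ 2 + a₁ * x₁ * y₁ + a₃ * y₁ = x₁ ^ 3 + a₂ * x₁ ^ 2 + a₄ * x₁ + a₆)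
    (h₂ : y₂ ^ 2 + a₁ * x₂ * y₂ + a₃ * y₂ = x₂ ^ 3 + a₂ * x₂ ^ 2 + a₄ * x₂ + a₆)
    (hx : x₁ ≠ x₂) :
    let ℓ := (y₁ - y₂) / (x₁ - x₂)
    let ℓ' := (y₁ - (-y₂ - a₁ * x₂ - a₃)) / (x₁ - x₂)
    let b₂ := a₁ ^ 2 + 4 * a₂
    let b₄ := 2 * a₄ + a₁ * a₃
    let b₆ := a₃ ^ 2 + 4 * a₆
    let b₈ := a₁ ^ 2 * a₆ + 4 * a₂ * a₆ - a₁ * a₃ * a₄ + a₂ * a₃ ^ 2 - a₄ ^ 2
    (x₁ - x₂) ^ 2 * ((ℓ ^ 2 + a₁ * ℓ - a₂ - x₁ - x₂) * (ℓ' ^ 2 + a₁ * ℓ' - a₂ - x₁ - x₂)) =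
      (x₁ * x₂) ^ 2 - b₄ * (x₁ * x₂) - b₆ * (x₁ + x₂) - b₈ ∧
    (x₁ - x₂) ^ 2 * ((ℓ ^ 2 + a₁ * ℓ - a₂ - x₁ - x₂) + (ℓ' ^ 2 + a₁ * ℓ' - a₂ - x₁ - x₂)) =
      2 * (x₁ + x₂) * (x₁ * x₂) + b₂ * (x₁ * x₂) + b₄ * (x₁ + x₂) + b₆ := by
  have hx' : x₁ - x₂ ≠ 0 := sub_ne_zero.mpr hx
  have ha₄ : a₄ = ((y₁ ^ 2 + a₁ * x₁ * y₁ + a₃ * y₁ - x₁ ^ 3 - a₂ * x₁ ^ 2) -
      (y₂ ^ 2 + a₁ * x₂ * y₂ + a₃ * y₂ - x₂ ^ 3 - a₂ * x₂ ^ 2)) / (x₁ - x₂) := by
    field_simp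
    linear_combination h₂ - h₁
  have ha₆ : a₆ = y₁ ^ 2 + a₁ * x₁ * y₁ + a₃ * y₁ - x₁ ^ 3 - a₂ * x₁ ^ 2 - a₄ * x₁ := by
    linear_combination -h₁
  rw [ha₄] at ha₆
  clear h₁ h₂
  subst ha₆
  subst ha₄
  refine ⟨?_, ?_⟩
  · field_simp
    ring
  · field_simp
    ring


theorem double_identity (a₁ a₂ a₃ a₄ a₆ x y : F)
    (h : y ^ 2 + a₁ * x * y + a₃ * y = x ^ 3 + a₂ * x ^ 2 + a₄ * x + a₆)
    (hy : y ≠ -y - a₁ * x - a₃) :
    let ℓ := (3 * x ^ 2 + 2 * a₂ * x + a₄ - a₁ * y) / (y - (-y - a₁ * x - a₃))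
    let b₂ := a₁ ^ 2 + 4 * a₂
    let b₄ := 2 * a₄ + a₁ * a₃
    let b₆ := a₃ ^ 2 + 4 * a₆
    let b₈ := a₁ ^ 2 * a₆ + 4 * a₂ * a₆ - a₁ * a₃ * a₄ + a₂ * a₃ ^ 2 - a₄ ^ 2
    (y - (-y - a₁ * x - a₃)) ^ 2 * (ℓ ^ 2 + a₁ * ℓ - a₂ - x - x) =
      x ^ 4 - b₄ * x ^ 2 - b₆ * (2 * x) - b₈ ∧
    (y - (-y - a₁ * x - a₃)) ^ 2 = 4 * x ^ 3 + b₂ * x ^ 2 + 2 * b₄ * x + b₆ := by
  have hy' : y - (-y - a₁ * x - a₃) ≠ 0 := sub_ne_zero.mpr hy
  have ha₆ : a₆ = y ^ 2 + a₁ * x * y + a₃ * y - x ^ 3 - a₂ * x ^ 2 - a₄ * x := by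
    linear_combination -h
  clear h
  subst ha₆
  refine ⟨?_, ?_⟩
  · field_simp
    ring
  · ring

section Points

variable [W.IsElliptic]

theorem addSubEval_ne_zero {v : Fin 3 → F} (hv : v ≠ 0) : addSubEval W v ≠ 0 :=
  addSubMap_ne_zero W hv

variable [DecidableEq F]

private theorem addSub_self (x y : F) (h : W.toAffine.Nonsingular x y) :
    ∃ c : F, c ≠ 0 ∧ addSubEval W ((Point.some x y h).sym2x (Point.some x y h)) =
      c • ((Point.some x y h) + (Point.some x y h)).sym2x 0 := by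
  have heq := (WeierstrassCurve.Affine.equation_iff x y).mp h.1
  by_cases hy : y = W.toAffine.negY x y
  · rw [add_self_of_Y_eq hy, sym2x_zero_zero, sym2x_some_some]
    have hne : addSubEval W ![x * x, x + x, 1] ≠ 0 := by
      refine addSubEval_ne_zero fun h0 ↦ ?_
      have := congrFun h0 2
      simp at this
    rw [addSubEval_eq] at hne ⊢
    have h2 : 2 * (x + x) * (x * x) + W.b₂ * (x * x) * 1 + W.b₄ * (x + x) * 1 +
        W.b₆ * 1 ^ 2 = 0 := by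
      have h2y : 2 * y + W.a₁ * x + W.a₃ = 0 := by
        simp only [negY] at hy
        linear_combination hy
      simp only [WeierstrassCurve.b₂, WeierstrassCurve.b₄, WeierstrassCurve.b₆]
      linear_combination (2 * y + W.a₁ * x + W.a₃) * h2y - 4 * heq
    have h3 : (x + x) ^ 2 - 4 * (x * x) * 1 = 0 := by ring
    rw [h2, h3] at hne ⊢
    refine ⟨(x * x) ^ 2 - W.b₄ * (x * x) * 1 - W.b₆ * (x + x) * 1 - W.b₈ * 1 ^ 2,
      fun h0 ↦ hne (by rw [h0]; ext i; fin_cases i <;> rfl), ?_⟩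
    · ext i
      fin_cases i
      · simp
      · simp
      · simp
  · rw [add_self_of_Y_ne hy, sym2x_some_zero, sym2x_some_some, addSubEval_eq]
    obtain ⟨h1, h2⟩ := double_identity _ _ _ _ _ _ _ heq hy
    refine ⟨(y - (-y - W.a₁ * x - W.a₃)) ^ 2, pow_ne_zero 2 (sub_ne_zero.mpr hy), ?_⟩
    rw [slope_of_Y_ne rfl hy]
    ext i
    fin_cases i
    · simp only [negY, addX, Fin.zero_eta, Fin.isValue, Matrix.cons_val_zero, Pi.smul_apply,
        smul_eq_mul, WeierstrassCurve.b₄, WeierstrassCurve.b₆, WeierstrassCurve.b₈] at h1 ⊢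
      linear_combination -h1
    · simp only [Fin.mk_one, Fin.isValue, Matrix.cons_val_one, Matrix.cons_val_zero, Pi.smul_apply,
        smul_eq_mul, WeierstrassCurve.b₂, WeierstrassCurve.b₄, WeierstrassCurve.b₆] at h2 ⊢
      linear_combination -h2
    · simp
      ring

/-- The map on x-coordinates really computes `x(P+Q)x(P-Q)` and `x(P+Q)+x(P-Q)`. -/
theorem exists_addSubEval_sym2x (P Q : W.toAffine.Point) :
    ∃ c : F, c ≠ 0 ∧ addSubEval W (P.sym2x Q) = c • (P + Q).sym2x (P - Q) := by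
  match P, Q with
  | 0, 0 => exact ⟨1, one_ne_zero, by simp [sym2x, addSubEval_eq]⟩
  | 0, Point.some x y h =>
    refine ⟨1, one_ne_zero, ?_⟩
    rw [sym2x_zero_some, addSubEval_eq, zero_add, zero_sub, sym2x_neg_right, sym2x_some_some]
    simp [pow_two, two_mul]
  | Point.some x y h, 0 =>
    refine ⟨1, one_ne_zero, ?_⟩
    rw [sym2x_some_zero, addSubEval_eq, add_zero, sub_zero, sym2x_some_some]
    simp [pow_two, two_mul]
  | Point.some x₁ y₁ h₁, Point.some x₂ y₂ h₂ =>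
    by_cases hx : x₁ = x₂
    · -- `Q = ± P`
      rcases X_eq_iff.mp hx with h | h
      · rw [← h, sub_self]
        exact addSub_self _ _ _
      · rw [eq_neg_iff_add_eq_zero.mp h, eq_neg_iff_add_eq_zero.mpr ((add_comm _ _).trans
          (eq_neg_iff_add_eq_zero.mp h)), sub_neg_eq_add, sym2x_neg_right, sym2x_comm 0]
        exact addSub_self _ _ _
    · refine ⟨(x₁ - x₂) ^ 2, pow_ne_zero 2 (sub_ne_zero.mpr hx), ?_⟩
      have e₁ := (WeierstrassCurve.Affine.equation_iff x₁ y₁).mp h₁.1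
      have e₂ := (WeierstrassCurve.Affine.equation_iff x₂ y₂).mp h₂.1
      obtain ⟨hmul, hadd⟩ := addSub_identity _ _ _ _ _ _ _ _ _ e₁ e₂ hx
      rw [sub_eq_add_neg (Point.some x₁ y₁ h₁), neg_some, add_of_X_ne hx, add_of_X_ne hx,
        sym2x_some_some, sym2x_some_some, addSubEval_eq, slope_of_X_ne hx, slope_of_X_ne hx]
      ext i
      fin_cases i
      · simp only [negY, addX, Fin.zero_eta, Fin.isValue, Matrix.cons_val_zero, Pi.smul_apply,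
          smul_eq_mul, WeierstrassCurve.b₄, WeierstrassCurve.b₆, WeierstrassCurve.b₈] at hmul ⊢
        linear_combination -hmul
      · simp only [negY, addX, Fin.mk_one, Fin.isValue, Matrix.cons_val_one, Matrix.cons_val_zero,
          Pi.smul_apply, smul_eq_mul, WeierstrassCurve.b₂, WeierstrassCurve.b₄,
          WeierstrassCurve.b₆] at hadd ⊢
        linear_combination -hadd
      · simp
        ring

end Points

end Fermat.Agent.EllTorsion
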