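import Fermat.Agent.EllTorsion.AddSub

set_option autoImplicit false

/-!
# `x(nP)` as a rational function of `x(P)`
-/

open WeierstrassCurve WeierstrassCurve.Affine WeierstrassCurve.Affine.Point
open Polynomial

namespace Fermat.Agent.EllTorsion

variable {F : Type*} [Field F]

/-- symmetric product of two coordinate vectors on the projective line -/
def sym2 {R : Type*} [CommRing R] (v w : Fin 2 → R) : Fin 3 → R :=
  ![v 0 * w 0, v 0 * w 1 + v 1 * w 0, v 1 * w 1]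

theorem sym2x_eq {W : WeierstrassCurve F} (P Q : W.toAffine.Point) :
    P.sym2x Q = sym2 P.xRep Q.xRep := rfl

theorem sym2_smul_smul {R : Type*} [CommRing R] (a b : R) (v w : Fin 2 → R) :
    sym2 (a • v) (b • w) = (a * b) • sym2 v w := by
  ext i; fin_cases i <;> simp [sym2] <;> ring

theorem sym2_right_cancel {v v' w : Fin 2 → F} (hw : w ≠ 0) (h : sym2 v w = sym2 v' w) :
    v = v' := by
  have h0 := congrFun h 0
  have h1 := congrFun h 1
  have h2 := congrFun h 2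
  simp only [sym2, Fin.isValue, Matrix.cons_val_zero, Matrix.cons_val_one, Matrix.cons_val] at h0 h1 h2
  by_cases hw0 : w 0 = 0
  · have hw1 : w 1 ≠ 0 := by
      intro hw1; apply hw; ext i; fin_cases i <;> simp [hw0, hw1]
    rw [hw0] at h1
    simp only [mul_zero, add_zero] at h1
    ext i; fin_cases i
    · exact mul_right_cancel₀ hw1 h1
    · exact mul_right_cancel₀ hw1 h2
  · have e0 : v 0 = v' 0 := mul_right_cancel₀ hw0 h0
    rw [e0] at h1
    ext i; fin_cases i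
    · exact e0
    · exact mul_right_cancel₀ hw0 (add_left_cancel h1)

theorem addSubEval_smul (W : WeierstrassCurve F) (c : F) (v : Fin 3 → F) :
    addSubEval W (c • v) = c ^ 2 • addSubEval W v := by
  have : v = ![v 0, v 1, v 2] := by ext i; fin_cases i <;> rfl
  rw [this]
  have h2 : c • ![v 0, v 1, v 2] = ![c * v 0, c * v 1, c * v 2] := by
    ext i; fin_cases i <;> rfl
  rw [h2, addSubEval_eq, addSubEval_eq]
  ext i; fin_cases i <;> simp <;> ring

variable (W : WeierstrassCurve F) [DecidableEq F]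

/-- `(A : B)` is the `n`-multiplication map on `x`-coordinates. -/
structure IsMulX (n : ℕ) (A B : F[X]) : Prop where
  monic : A.Monic
  deg : A.natDegree = n ^ 2
  degB : (X * B).natDegree ≤ n ^ 2
  coeffB : (X * B).coeff (n ^ 2) = (n : F) ^ 2
  cop : ∀ x, A.eval x = 0 → B.eval x ≠ 0
  eval : ∀ (x y : F) (h : W.toAffine.Nonsingular x y),
    (n • Point.some x y h).xRep 0 * B.eval x = (n • Point.some x y h).xRep 1 * A.eval x

variable {W}

theorem isMulX_zero : IsMulX W 0 1 0 where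
  monic := monic_one
  deg := by simp
  degB := by simp
  coeffB := by simp
  cop := by simp
  eval x y h := by simp

theorem isMulX_one : IsMulX W 1 X 1 where
  monic := monic_X
  deg := by simp
  degB := by simp
  coeffB := by simp
  cop := by simp
  eval x y h := by simp

theorem IsMulX.exists_smul {n : ℕ} {A B : F[X]} (hn : IsMulX W n A B) {x y : F}
    (h : W.toAffine.Nonsingular x y) :
    ∃ c : F, c ≠ 0 ∧ ![A.eval x, B.eval x] = c • (n • Point.some x y h).xRep := by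
  have h1 := hn.eval x y h
  have h2 := hn.cop x
  rcases hP : n • Point.some x y h with _ | ⟨x', y', h'⟩
  · rw [hP] at h1
    change (1 : F) * _ = 0 * _ at h1
    rw [one_mul, zero_mul] at h1
    refine ⟨A.eval x, fun h0 ↦ h2 h0 h1, ?_⟩
    ext i; fin_cases i
    · simp [xRep]
    · simp [xRep, h1]
  · rw [hP] at h1
    change x' * _ = 1 * _ at h1
    rw [one_mul] at h1
    refine ⟨B.eval x, fun h0 ↦ h2 (by rw [← h1, h0, mul_zero]) h0, ?_⟩
    ext i; fin_cases i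
    · simp [xRep, ← h1, mul_comm]
    · simp [xRep]


section Step

variable [IsAlgClosed F] [W.IsElliptic]

omit [DecidableEq F] in
theorem exists_nonsingular (x : F) : ∃ y, W.toAffine.Nonsingular x y := by
  have hdeg : (X ^ 2 + C (W.a₁ * x + W.a₃) * X - C (x ^ 3 + W.a₂ * x ^ 2 + W.a₄ * x + W.a₆) :
      F[X]).degree ≠ 0 := by
    have : (X ^ 2 + C (W.a₁ * x + W.a₃) * X - C (x ^ 3 + W.a₂ * x ^ 2 + W.a₄ * x + W.a₆) :
      F[X]).degree = 2 := by
      compute_degree!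
    rw [this]; norm_num
  obtain ⟨y, hy⟩ := IsAlgClosed.exists_root _ hdeg
  refine ⟨y, WeierstrassCurve.Affine.equation_iff_nonsingular.mp ?_⟩
  rw [WeierstrassCurve.Affine.equation_iff]
  simp only [IsRoot.def, eval_sub, eval_add, eval_pow, eval_X, eval_mul, eval_C] at hy
  linear_combination hy

omit [IsAlgClosed F] in
/-- the polynomial lift of the numerator/denominator data -/
theorem step_eval {n : ℕ} {A B A₁ B₁ : F[X]} (h0 : IsMulX W n A B) (h1 : IsMulX W (n + 1) A₁ B₁)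
    {x y : F} (h : W.toAffine.Nonsingular x y) :
    ∃ c : F, c ≠ 0 ∧ addSubEval W ![(A₁ * X).eval x, (A₁ + X * B₁).eval x, B₁.eval x] =
      c • sym2 (((n + 2) • Point.some x y h).xRep) ![A.eval x, B.eval x] := by
  obtain ⟨c₀, hc₀, e₀⟩ := h0.exists_smul h
  obtain ⟨c₁, hc₁, e₁⟩ := h1.exists_smul h
  obtain ⟨c, hc, e⟩ := exists_addSubEval_sym2x ((n + 1) • Point.some x y h) (Point.some x y h)
  have e2 : (n + 1) • Point.some x y h + Point.some x y h = (n + 2) • Point.some x y h := by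
    rw [show n + 2 = (n + 1) + 1 from rfl, succ_nsmul _ (n + 1)]
  have e3 : (n + 1) • Point.some x y h - Point.some x y h = n • Point.some x y h := by
    rw [succ_nsmul, add_sub_cancel_right]
  rw [e2, e3, sym2x_eq, sym2x_eq] at e
  have e4 : ![(A₁ * X).eval x, (A₁ + X * B₁).eval x, B₁.eval x] =
      c₁ • sym2 ((n + 1) • Point.some x y h).xRep (Point.some x y h).xRep := by
    have : sym2 ![A₁.eval x, B₁.eval x] (Point.some x y h).xRep =
      ![(A₁ * X).eval x, (A₁ + X * B₁).eval x, B₁.eval x] := by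
      ext i; fin_cases i
      · simp [sym2]
      · simp [sym2, mul_comm]
      · simp [sym2]
    rw [← this, e₁]
    have h5 := sym2_smul_smul c₁ 1 ((n + 1) • Point.some x y h).xRep (Point.some x y h).xRep
    rw [one_smul, mul_one] at h5
    exact h5
  rw [e4, addSubEval_smul, e]
  have e5 : (n • Point.some x y h).xRep = c₀⁻¹ • ![A.eval x, B.eval x] := by
    rw [e₀, smul_smul, inv_mul_cancel₀ hc₀, one_smul]
  rw [e5]
  have h6 := sym2_smul_smul 1 c₀⁻¹ ((n + 2) • Point.some x y h).xRep ![A.eval x, B.eval x]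
  rw [one_smul, one_mul] at h6
  rw [h6, smul_smul, smul_smul]
  exact ⟨_, by positivity, rfl⟩


omit [IsAlgClosed F] [W.IsElliptic] in
theorem step_degrees {n : ℕ} {A₁ B₁ : F[X]} (h1 : IsMulX W (n + 1) A₁ B₁) :
    let S : F[X] := (A₁ * X) ^ 2 - C W.b₄ * (A₁ * X) * B₁ - C W.b₆ * (A₁ + X * B₁) * B₁ -
      C W.b₈ * B₁ ^ 2
    let T : F[X] := 2 * (A₁ + X * B₁) * (A₁ * X) + C W.b₂ * (A₁ * X) * B₁ +
      C W.b₄ * (A₁ + X * B₁) * B₁ + C W.b₆ * B₁ ^ 2
    S.Monic ∧ S.natDegree = 2 * (n + 1) ^ 2 + 2 ∧ (X * T).natDegree ≤ 2 * (n + 1) ^ 2 + 2 ∧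
      (X * T).coeff (2 * (n + 1) ^ 2 + 2) = 2 + 2 * (n + 1 : F) ^ 2 := by
  intro S T
  have hm := h1.monic
  have hd := h1.deg
  have hdB := h1.degB
  have hcB := h1.coeffB
  obtain ⟨k, hk⟩ : ∃ k, (n + 1) ^ 2 = k + 1 := ⟨n ^ 2 + 2 * n, by ring⟩
  rw [hk] at hd hdB hcB ⊢
  have hB : B₁.natDegree ≤ k := by
    by_cases hB0 : B₁ = 0
    · simp [hB0]
    · rw [natDegree_X_mul hB0] at hdB; omega
  have hcB' : B₁.coeff k = (n + 1 : F) ^ 2 := by
    rw [coeff_X_mul] at hcB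
    rw [hcB]; push_cast; ring
  have hQ : (A₁ + X * B₁).natDegree ≤ k + 1 :=
    natDegree_add_le_of_degree_le hd.le hdB
  have hcQ : (A₁ + X * B₁).coeff (k + 1) = 1 + (n + 1 : F) ^ 2 := by
    rw [coeff_add, coeff_X_mul, hcB', ← hd, hm.coeff_natDegree]
  have hAX : (A₁ * X).natDegree = k + 2 := by
    rw [natDegree_mul_X hm.ne_zero, hd]
  have hAXm : (A₁ * X).Monic := hm.mul monic_X
  have hAX2m : ((A₁ * X) ^ 2).Monic := hAXm.pow 2
  have hAX2d : ((A₁ * X) ^ 2).natDegree = 2 * (k + 1) + 2 := by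
    rw [hAXm.natDegree_pow, hAX]; ring
  have hC : ∀ (c : F) (p q : F[X]) (d e : ℕ), p.natDegree ≤ d → q.natDegree ≤ e →
      (C c * p * q).natDegree ≤ d + e := by
    intro c p q d e hp hq
    refine natDegree_mul_le_of_le ?_ hq
    exact (natDegree_C_mul_le c p).trans hp
  have hR : (C W.b₄ * (A₁ * X) * B₁ + C W.b₆ * (A₁ + X * B₁) * B₁ + C W.b₈ * B₁ ^ 2).natDegree
      ≤ 2 * (k + 1) := by
    refine natDegree_add_le_of_degree_le (natDegree_add_le_of_degree_le ?_ ?_) ?_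
    · exact (hC _ _ _ _ _ hAX.le hB).trans (by omega)
    · exact (hC _ _ _ _ _ hQ hB).trans (by omega)
    · rw [pow_two, ← mul_assoc]
      exact (hC _ _ _ _ _ hB hB).trans (by omega)
  have hS' : S = (A₁ * X) ^ 2 - (C W.b₄ * (A₁ * X) * B₁ + C W.b₆ * (A₁ + X * B₁) * B₁ +
      C W.b₈ * B₁ ^ 2) := by ring
  have hSdeg : S.natDegree = 2 * (k + 1) + 2 := by
    rw [hS', natDegree_sub_eq_left_of_natDegree_lt (by rw [hAX2d]; omega), hAX2d]
  have hT1 : (C (2 : F) * (A₁ + X * B₁) * (A₁ * X)).natDegree ≤ 2 * (k + 1) + 1 :=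
    (hC _ _ _ _ _ hQ hAX.le).trans (by omega)
  have hT2 : (C W.b₂ * (A₁ * X) * B₁ + C W.b₄ * (A₁ + X * B₁) * B₁ + C W.b₆ * B₁ ^ 2).natDegree
      ≤ 2 * (k + 1) := by
    refine natDegree_add_le_of_degree_le (natDegree_add_le_of_degree_le ?_ ?_) ?_
    · exact (hC _ _ _ _ _ hAX.le hB).trans (by omega)
    · exact (hC _ _ _ _ _ hQ hB).trans (by omega)
    · rw [pow_two, ← mul_assoc]
      exact (hC _ _ _ _ _ hB hB).trans (by omega)
  have hT' : T = C (2 : F) * (A₁ + X * B₁) * (A₁ * X) + (C W.b₂ * (A₁ * X) * B₁ +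
      C W.b₄ * (A₁ + X * B₁) * B₁ + C W.b₆ * B₁ ^ 2) := by
    simp only [T, map_ofNat]; ring
  refine ⟨?_, hSdeg, ?_, ?_⟩
  · rw [Monic, leadingCoeff, hSdeg, hS', coeff_sub, coeff_eq_zero_of_natDegree_lt
      (lt_of_le_of_lt hR (by omega)), sub_zero, ← hAX2d, hAX2m.coeff_natDegree]
  · have : T.natDegree ≤ 2 * (k + 1) + 1 := by
      rw [hT']
      exact natDegree_add_le_of_degree_le hT1 (hT2.trans (by omega))
    exact (natDegree_mul_le_of_le natDegree_X_le this).trans (by omega)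
  · rw [coeff_X_mul, hT', coeff_add, coeff_eq_zero_of_natDegree_lt
      (lt_of_le_of_lt hT2 (by omega)), add_zero, mul_assoc, coeff_C_mul,
      show 2 * (k + 1) + 1 = (k + 1) + (k + 2) by omega,
      coeff_mul_add_eq_of_natDegree_le hQ hAX.le, hcQ, ← hAX, hAXm.coeff_natDegree]
    ring

/-- The next step of the multiplication map, for given solutions of the recursion. -/
theorem IsMulX.step_of_eq {n : ℕ} {A B A₁ B₁ A₂ B₂ : F[X]} (h0 : IsMulX W n A B)
    (h1 : IsMulX W (n + 1) A₁ B₁)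
    (hA₂ : (A₁ * X) ^ 2 - C W.b₄ * (A₁ * X) * B₁ - C W.b₆ * (A₁ + X * B₁) * B₁ -
      C W.b₈ * B₁ ^ 2 = A * A₂)
    (hB₂ : 2 * (A₁ + X * B₁) * (A₁ * X) + C W.b₂ * (A₁ * X) * B₁ +
      C W.b₄ * (A₁ + X * B₁) * B₁ + C W.b₆ * B₁ ^ 2 = A₂ * B + A * B₂) :
    IsMulX W (n + 2) A₂ B₂ := by
  obtain ⟨hSm, hSd, hTd, hTc⟩ := step_degrees h1
  set S : F[X] := (A₁ * X) ^ 2 - C W.b₄ * (A₁ * X) * B₁ - C W.b₆ * (A₁ + X * B₁) * B₁ -
      C W.b₈ * B₁ ^ 2 with hS
  set T : F[X] := 2 * (A₁ + X * B₁) * (A₁ * X) + C W.b₂ * (A₁ * X) * B₁ +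
      C W.b₄ * (A₁ + X * B₁) * B₁ + C W.b₆ * B₁ ^ 2 with hT
  set U : F[X] := (A₁ + X * B₁) ^ 2 - 4 * (A₁ * X) * B₁ with hU
  have hinf : Infinite F := IsAlgClosed.instInfinite
  -- evaluation of S, T, U
  have hev : ∀ x : F, addSubEval W ![(A₁ * X).eval x, (A₁ + X * B₁).eval x, B₁.eval x] =
      ![S.eval x, T.eval x, U.eval x] := by
    intro x
    rw [addSubEval_eq, hS, hT, hU]
    ext i; fin_cases i <;> simp
  have hrel : S * B ^ 2 - T * A * B + U * A ^ 2 = 0 := by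
    apply Polynomial.funext
    intro x
    obtain ⟨y, h⟩ := exists_nonsingular (W := W) x
    obtain ⟨c, hc, e⟩ := step_eval h0 h1 h
    rw [hev] at e
    have e0 := congrFun e 0
    have e1 := congrFun e 1
    have e2 := congrFun e 2
    simp only [sym2, Fin.isValue, Matrix.cons_val_zero, Matrix.cons_val_one, Matrix.cons_val,
      Pi.smul_apply, smul_eq_mul] at e0 e1 e2
    simp only [eval_add, eval_sub, eval_mul, eval_pow, eval_zero, e0, e1, e2]
    ring
  have hA0 : A ≠ 0 := h0.monic.ne_zero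
  have hU2 : U = B * B₂ := by
    apply mul_left_cancel₀ (mul_ne_zero hA0 hA0)
    rw [hA₂, hB₂] at hrel
    linear_combination hrel
  -- evaluation
  have hev2 : ∀ (x y : F) (h : W.toAffine.Nonsingular x y), ∃ c : F, c ≠ 0 ∧
      ![A₂.eval x, B₂.eval x] = c • ((n + 2) • Point.some x y h).xRep := by
    intro x y h
    obtain ⟨c, hc, e⟩ := step_eval h0 h1 h
    refine ⟨c, hc, ?_⟩
    have hw : ![A.eval x, B.eval x] ≠ 0 := by
      intro h0'
      have e0 := congrFun h0' 0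
      have e1 := congrFun h0' 1
      simp only [Fin.isValue, Matrix.cons_val_zero, Matrix.cons_val_one, Pi.zero_apply] at e0 e1
      exact h0.cop x e0 e1
    apply sym2_right_cancel hw
    have h6 := sym2_smul_smul c 1 ((n + 2) • Point.some x y h).xRep ![A.eval x, B.eval x]
    rw [one_smul, mul_one] at h6
    rw [h6, ← e, hev]
    ext i; fin_cases i
    · simp [sym2, hA₂, mul_comm]
    · simp [sym2, hB₂, mul_comm]
    · simp [sym2, hU2, mul_comm]
  have hA₂m : A₂.Monic := by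
    rw [hA₂] at hSm
    exact h0.monic.of_mul_monic_left hSm
  have hA₂d : A₂.natDegree = (n + 2) ^ 2 := by
    have h7 : (A * A₂).natDegree = A.natDegree + A₂.natDegree := h0.monic.natDegree_mul hA₂m
    rw [← hA₂, hSd, h0.deg] at h7
    have : (n + 2) ^ 2 + n ^ 2 = 2 * (n + 1) ^ 2 + 2 := by ring
    omega
  have hXAB : A * (X * B₂) = X * T - A₂ * (X * B) := by linear_combination -X * hB₂
  have hrd : (A₂ * (X * B)).natDegree ≤ (n + 2) ^ 2 + n ^ 2 :=
    natDegree_mul_le_of_le hA₂d.le h0.degB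
  have hnn : (n + 2) ^ 2 + n ^ 2 = 2 * (n + 1) ^ 2 + 2 := by ring
  have hAB₂d : (A * (X * B₂)).natDegree ≤ (n + 2) ^ 2 + n ^ 2 := by
    rw [hXAB]
    exact (natDegree_sub_le_of_le (hnn ▸ hTd) hrd).trans (by simp)
  have hB₂d : (X * B₂).natDegree ≤ (n + 2) ^ 2 := by
    by_cases h0' : X * B₂ = 0
    · simp [h0']
    · rw [h0.monic.natDegree_mul' h0', h0.deg] at hAB₂d
      omega
  refine ⟨hA₂m, hA₂d, hB₂d, ?_, ?_, ?_⟩
  · have h8 := congrArg (fun p : F[X] => p.coeff ((n + 2) ^ 2 + n ^ 2)) hXAB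
    simp only [coeff_sub] at h8
    rw [coeff_mul_add_eq_of_natDegree_le hA₂d.le h0.degB, h0.coeffB,
      add_comm ((n + 2) ^ 2), coeff_mul_add_eq_of_natDegree_le h0.deg.le hB₂d, ← h0.deg,
      h0.monic.coeff_natDegree, h0.deg, add_comm (n ^ 2), hnn, hTc, ← hA₂d,
      hA₂m.coeff_natDegree, hA₂d] at h8
    push_cast
    linear_combination h8
  · intro x hx hx'
    obtain ⟨y, h⟩ := exists_nonsingular (W := W) x
    obtain ⟨c, hc, e⟩ := hev2 x y h
    rw [hx, hx'] at e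
    apply ((n + 2) • Point.some x y h).xRep_ne_zero
    have : c • ((n + 2) • Point.some x y h).xRep = c • 0 := by
      rw [← e, smul_zero]; ext i; fin_cases i <;> rfl
    exact smul_right_injective _ hc this
  · intro x y h
    obtain ⟨c, hc, e⟩ := hev2 x y h
    have e0 := congrFun e 0
    have e1 := congrFun e 1
    simp only [Fin.isValue, Matrix.cons_val_zero, Matrix.cons_val_one, Pi.smul_apply,
      smul_eq_mul] at e0 e1
    rw [e0, e1]
    ring

omit [W.IsElliptic] in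
theorem IsMulX.isCoprime {n : ℕ} {A B : F[X]} (h0 : IsMulX W n A B) : IsCoprime A B := by
  rw [isCoprime_iff_aeval_ne_zero_of_isAlgClosed F F]
  intro a
  by_cases ha : A.eval a = 0
  · exact Or.inr (by simpa using h0.cop a ha)
  · exact Or.inl (by simpa using ha)

/-- existence of the next step of the multiplication map -/
theorem IsMulX.step {n : ℕ} {A B A₁ B₁ : F[X]} (h0 : IsMulX W n A B)
    (h1 : IsMulX W (n + 1) A₁ B₁) : ∃ A₂ B₂, IsMulX W (n + 2) A₂ B₂ := by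
  set S : F[X] := (A₁ * X) ^ 2 - C W.b₄ * (A₁ * X) * B₁ - C W.b₆ * (A₁ + X * B₁) * B₁ -
      C W.b₈ * B₁ ^ 2 with hS
  set T : F[X] := 2 * (A₁ + X * B₁) * (A₁ * X) + C W.b₂ * (A₁ * X) * B₁ +
      C W.b₄ * (A₁ + X * B₁) * B₁ + C W.b₆ * B₁ ^ 2 with hT
  set U : F[X] := (A₁ + X * B₁) ^ 2 - 4 * (A₁ * X) * B₁ with hU
  have hinf : Infinite F := IsAlgClosed.instInfinite
  have hev : ∀ x : F, addSubEval W ![(A₁ * X).eval x, (A₁ + X * B₁).eval x, B₁.eval x] =
      ![S.eval x, T.eval x, U.eval x] := by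
    intro x
    rw [addSubEval_eq, hS, hT, hU]
    ext i; fin_cases i <;> simp
  have hcop : IsCoprime A B := h0.isCoprime
  have hrel : S * B ^ 2 - T * A * B + U * A ^ 2 = 0 := by
    apply Polynomial.funext
    intro x
    obtain ⟨y, h⟩ := exists_nonsingular (W := W) x
    obtain ⟨c, hc, e⟩ := step_eval h0 h1 h
    rw [hev] at e
    have e0 := congrFun e 0
    have e1 := congrFun e 1
    have e2 := congrFun e 2
    simp only [sym2, Fin.isValue, Matrix.cons_val_zero, Matrix.cons_val_one, Matrix.cons_val,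
      Pi.smul_apply, smul_eq_mul] at e0 e1 e2
    simp only [eval_add, eval_sub, eval_mul, eval_pow, eval_zero, e0, e1, e2]
    ring
  have hA0 : A ≠ 0 := h0.monic.ne_zero
  obtain ⟨A₂, hA₂⟩ : A ∣ S := by
    have : A ∣ S * B ^ 2 := ⟨T * B - U * A, by linear_combination hrel⟩
    exact (hcop.pow_right).dvd_of_dvd_mul_right this
  have hrel2 : A₂ * B ^ 2 - T * B + U * A = 0 := by
    apply mul_left_cancel₀ hA0
    rw [hA₂] at hrel
    linear_combination hrel
  obtain ⟨B₂, hB₂⟩ : A ∣ T - A₂ * B := by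
    have : A ∣ (T - A₂ * B) * B := ⟨U, by linear_combination -hrel2⟩
    exact hcop.dvd_of_dvd_mul_right this
  exact ⟨A₂, B₂, h0.step_of_eq h1 hA₂ (by linear_combination hB₂)⟩

/-- The multiplication-by-`n` map on `x`-coordinates, for every `n`. -/
theorem exists_isMulX (n : ℕ) : ∃ A B : F[X], IsMulX W n A B := by
  have : (∃ A B : F[X], IsMulX W n A B) ∧ (∃ A B : F[X], IsMulX W (n + 1) A B) := by
    induction n with
    | zero => exact ⟨⟨_, _, isMulX_zero⟩, ⟨_, _, isMulX_one⟩⟩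
    | succ n ih =>
      obtain ⟨⟨A, B, h0⟩, ⟨A₁, B₁, h1⟩⟩ := ih
      exact ⟨⟨A₁, B₁, h1⟩, h0.step h1⟩
  exact this.1

/-- If Mathlib's `Φ` and `ΨSq` satisfy the two add-sub recursions, then they are the
multiplication maps on `x`-coordinates. -/
theorem isMulX_Φ_ΨSq_of
    (hΦ : ∀ n : ℕ, W.Φ ((n + 2 : ℕ) : ℤ) * W.Φ (n : ℤ) =
      (W.Φ ((n + 1 : ℕ) : ℤ) * X) ^ 2 - C W.b₄ * (W.Φ ((n + 1 : ℕ) : ℤ) * X) *
        W.ΨSq ((n + 1 : ℕ) : ℤ) - C W.b₆ * (W.Φ ((n + 1 : ℕ) : ℤ) + X * W.ΨSq ((n + 1 : ℕ) : ℤ)) *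
        W.ΨSq ((n + 1 : ℕ) : ℤ) - C W.b₈ * W.ΨSq ((n + 1 : ℕ) : ℤ) ^ 2)
    (hT : ∀ n : ℕ, W.Φ ((n + 2 : ℕ) : ℤ) * W.ΨSq (n : ℤ) + W.Φ (n : ℤ) * W.ΨSq ((n + 2 : ℕ) : ℤ) =
      2 * (W.Φ ((n + 1 : ℕ) : ℤ) + X * W.ΨSq ((n + 1 : ℕ) : ℤ)) * (W.Φ ((n + 1 : ℕ) : ℤ) * X) +
        C W.b₂ * (W.Φ ((n + 1 : ℕ) : ℤ) * X) * W.ΨSq ((n + 1 : ℕ) : ℤ) +
        C W.b₄ * (W.Φ ((n + 1 : ℕ) : ℤ) + X * W.ΨSq ((n + 1 : ℕ) : ℤ)) *
          W.ΨSq ((n + 1 : ℕ) : ℤ) + C W.b₆ * W.ΨSq ((n + 1 : ℕ) : ℤ) ^ 2) (n : ℕ) :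
    IsMulX W n (W.Φ (n : ℤ)) (W.ΨSq (n : ℤ)) := by
  have : IsMulX W n (W.Φ (n : ℤ)) (W.ΨSq (n : ℤ)) ∧
      IsMulX W (n + 1) (W.Φ ((n + 1 : ℕ) : ℤ)) (W.ΨSq ((n + 1 : ℕ) : ℤ)) := by
    induction n with
    | zero => simpa using And.intro (isMulX_zero (W := W)) (isMulX_one (W := W))
    | succ n ih =>
      obtain ⟨h0, h1⟩ := ih
      refine ⟨h1, h0.step_of_eq h1 ?_ ?_⟩
      · rw [← hΦ n, mul_comm]
      · rw [← hT n]
  exact this.1

end Step

end Fermat.Agent.EllTorsion
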